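import Fermat.Agent.HeckeRed.Package

/-!
# Statements of BLOCKS LQ-K1 and LQ-K2 (Kronecker congruence for functions)
-/

set_option autoImplicit false

noncomputable section

open AlgebraicCurve ModularCurve IntermediateField HahnSeries

namespace Fermat.Agent.MazLQ

open Fermat.Agent.FunField Fermat.Agent.ModDeg Fermat.Agent.ModPoly Fermat.Agent.Igusa
  Fermat.Agent.Deuring Fermat.Agent.HeckeRed

local notation "Qb" => AlgebraicClosure ℚ

/-- LQ-K1: for `h` in the Gauss ring and a constant `a ∈ A`, the norm `T (1 + a h)` is `1 + a w`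
with `w(X ^ q) = h(X ^ (q ^ 2))` modulo `(q, a)` in the Gauss ring. -/
def K1Statement : Prop :=
  ∀ (A : ValuationSubring Qb) (κ : Type) [Field κ] (π : A →+* κ) [IsLocalHom π]
    (_ : Function.Surjective π) (q N : ℕ) [Fact q.Prime] [NeZero N] [CharP κ q] (_ : ¬ q ∣ N)
    (h : laurentBaseChange Qb (modularFunctionFieldFull N)) (_ : (h : LaurentSeries Qb) ∈
      gaussRing A π) (a : Qb) (_ : a ∈ A) (_ : a ≠ 0),
    ∃ w : laurentBaseChange Qb (modularFunctionFieldFull N),
      (w : LaurentSeries Qb) ∈ gaussRing A π ∧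
      normAlong (heckeAlphaBar Qb N q) (heckeBetaBar Qb N q
        (1 + algebraMap Qb _ a * h)) = 1 + algebraMap Qb _ a * w ∧
      ∃ u ∈ gaussRing A π, ∃ v ∈ gaussRing A π,
        qExpand Qb q (w : LaurentSeries Qb) = qExpand Qb q (qExpand Qb q (h : LaurentSeries Qb)) +
          algebraMap Qb _ (q : Qb) * u + algebraMap Qb _ a * v

/-- LQ-K2: functions in the Gauss ring with poles reducing into a Frobenius stable set `Z` satisfy
`h(X ^ q) ≡ k ^ q` modulo `q` for such a function `k`. -/
def K2Statement : Prop :=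
  ∀ (A : ValuationSubring Qb) (κ : Type) [Field κ] [IsAlgClosed κ] (π : A →+* κ) [IsLocalHom π]
    (hπ : Function.Surjective π) (q N : ℕ) [Fact q.Prime] [NeZero N] [CharP κ q]
    [PerfectRing κ q] (_ : A.LiesOverPrime q) (hN : (N : κ) ≠ 0)
    (r : Place Qb (laurentBaseChange Qb (modularFunctionFieldFull N)) →
      Place κ (modularFunctionFieldFullC κ N)) (_ : IsReduction (dat A π hπ N hN) r)
    (Z : Set (Place κ (modularFunctionFieldFullC κ N)))
    (_ : ∀ P, frobAut (modularFunctionFieldFullC κ N) (full_stable N) q • P ∈ Z ↔ P ∈ Z)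
    (h : laurentBaseChange Qb (modularFunctionFieldFull N))
    (_ : (h : LaurentSeries Qb) ∈ gaussRing A π) (_ : ∀ P, r P ∉ Z → 0 ≤ P.ord h),
    ∃ k : laurentBaseChange Qb (modularFunctionFieldFull N),
      (k : LaurentSeries Qb) ∈ gaussRing A π ∧ (∀ P, r P ∉ Z → 0 ≤ P.ord k) ∧
      ∃ u ∈ gaussRing A π,
        qExpand Qb q (h : LaurentSeries Qb) = (k : LaurentSeries Qb) ^ q +
          algebraMap Qb _ (q : Qb) * u

end Fermat.Agent.MazLQ
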