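import Fermat.Agent.MzGal.Defs

/-!
# Interfaces for BLOCK LQ of the Mazur project

`LQHyp` : Weil pairing, reduction at a place `A` over `q`, and the isotropy of the kernel of
reduction. BLOCK LQ-B is the deduction `LQHyp → ∃ c ≠ 0, ∀ n, ∃ M0, LocQ P J q A c n M0`.
-/

set_option autoImplicit false

namespace Fermat.Agent.MazLQ

open Fermat.Agent.SEL Fermat.Agent.MzGal

local notation "Qb" => AlgebraicClosure ℚ
local notation "Γ" => (AlgebraicClosure ℚ ≃ₐ[ℚ] AlgebraicClosure ℚ)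

/-- Input of BLOCK LQ-B. `e n` is the Weil pairing on `J[q ^ n]` (only its values on `J[q ^ n]`
matter), `sp` the reduction at `A`, `Fr` the Frobenius on the reduction, `T` the operator `T_q`. -/
structure LQHyp {R : Type*} [CommRing R] (P : Ideal R) (J : Type*) [AddCommGroup J] [Module R J]
    [DistribMulAction Γ J] [SMulCommClass Γ R J] (q : ℕ) (A : ValuationSubring Qb)
    {Jb : Type*} [AddCommGroup Jb] (T : R) (e : ℕ → J → J → Qbˣ) (sp : J →+ Jb)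
    (Fr : Jb →+ Jb) : Prop where
  hA : A.LiesOverPrime q
  add_left : ∀ (n : ℕ) (x x' y : J), q ^ n • x = 0 → q ^ n • x' = 0 → q ^ n • y = 0 →
    e n (x + x') y = e n x y * e n x' y
  add_right : ∀ (n : ℕ) (x y y' : J), q ^ n • x = 0 → q ^ n • y = 0 → q ^ n • y' = 0 →
    e n x (y + y') = e n x y * e n x y'
  pow : ∀ (n : ℕ) (x y : J), q ^ n • x = 0 → q ^ n • y = 0 → e n x y ^ q ^ n = 1
  symm : ∀ (n : ℕ) (x y : J), q ^ n • x = 0 → q ^ n • y = 0 → e n y x = (e n x y)⁻¹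
  nondeg : ∀ (n : ℕ) (x : J), q ^ n • x = 0 → (∀ y : J, q ^ n • y = 0 → e n x y = 1) → x = 0
  level : ∀ (n m : ℕ) (x y : J), q ^ n • x = 0 → q ^ (n + m) • y = 0 →
    e n x (q ^ m • y) = e (n + m) x y
  gal : ∀ (n : ℕ) (x y : J) (σ : Γ), q ^ n • x = 0 → q ^ n • y = 0 →
    e n (σ • x) (σ • y) = σ • e n x y
  hecke : ∀ (n : ℕ) (t : R) (x y : J), q ^ n • x = 0 → q ^ n • y = 0 →
    e n (t • x) y = e n x (t • y)
  iner : ∀ s ∈ A.inertiaSubgroupIn ℚ, ∀ x : J, sp (s • x) = sp x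
  frob : ∀ σ : Γ, A.IsFrobeniusAt σ q → ∀ x : J, sp (σ • x) = Fr (sp x)
  es : ∀ x : J, Fr (sp (T • x)) = Fr (Fr (sp x)) + q • sp x
  fix : {z : Jb | Fr (Fr z) = z}.Finite
  iso : ∀ (n : ℕ) (x y : J), x ∈ primT P J (q ^ n) → y ∈ primT P J (q ^ n) → sp x = 0 →
    sp y = 0 → e n x y = 1

/-- Output of BLOCK LQ-B. -/
def LQOut {R : Type*} [CommRing R] (P : Ideal R) (J : Type*) [AddCommGroup J] [Module R J]
    [DistribMulAction Γ J] [SMulCommClass Γ R J] (q : ℕ) (A : ValuationSubring Qb) : Prop :=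
  ∃ c : ℕ, c ≠ 0 ∧ ∀ n : ℕ, ∃ M0 : AddSubgroup (primT P J (q ^ n)), LocQ P J q A c n M0

end Fermat.Agent.MazLQ
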