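import Fermat.Agent.MazLQ.Adj
import Fermat.Agent.MazLQ.Defs
import Fermat.Agent.MzGal.JMod
import Fermat.Agent.MzGal.Red
import Fermat.Agent.Ribet.Isotropy
import Fermat.Agent.PIC.Finite

/-!
# `LQHyp` for the Jacobian `J₀(N)`
-/

set_option autoImplicit false
set_option linter.unusedSectionVars false
set_option linter.style.haveILetI false
set_option maxHeartbeats 1000000
set_option synthInstance.maxHeartbeats 400000

noncomputable section

open AlgebraicCurve Module ModularCurve HahnSeries

attribute [-instance] Fermat.Agent.X0Places.ffField Fermat.Agent.X0Places.ffAlgebra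

namespace Fermat.Agent.MazLQ

open Fermat.Agent.FunField Fermat.Agent.FunField.PlaceLemmas Fermat.Agent.HeckeRed
  Fermat.Agent.Degen Fermat.Agent.WeilPairing Fermat.Agent.MzGal Fermat.Agent.Deuring

local notation "Qb" => AlgebraicClosure ℚ
local notation "Γ" => (AlgebraicClosure ℚ ≃ₐ[ℚ] AlgebraicClosure ℚ)

section Nondeg

variable {K : Type} {F : Type} [Field K] [IsAlgClosed K] [CharZero K] [Field F] [Algebra K F]
  [IsFF K F]

/-- left nondegeneracy of the Weil pairing -/
theorem weil_nondeg_left' {n : ℕ} (hn : 0 < n) {y : Pic0 K F} (hy : n • y = 0)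
    (h : ∀ x : Pic0 K F, n • x = 0 → weil n y x = 1) : y = 0 :=
  weil_nondeg (n := n) (Nat.cast_ne_zero.mpr hn.ne')
    (fun F' _ _ _ c => BaseChangeFF.pic0_divisible K F' n hn c) hy h

end Nondeg

section Fixed

variable {κ : Type*} [Field κ] [IsAlgClosed κ] {q : ℕ} [hq : Fact q.Prime] [CharP κ q]
  [PerfectRing κ q] (N : ℕ) [NeZero N]

/-- the Frobenius semilinear automorphism -/
abbrev frobS (κ : Type*) [Field κ] [IsAlgClosed κ] (q : ℕ) [hq : Fact q.Prime] [CharP κ q]
    [PerfectRing κ q] (N : ℕ) [NeZero N] : SemilinearAut κ (modularFunctionFieldFullC κ N) :=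
  frobAut (modularFunctionFieldFullC κ N) (full_stable N) q

theorem jqModC_mem : jqModC κ ∈ modularFunctionFieldFullC κ N := by
  have h := jqModCd_mem_full κ N (d := 1) (one_dvd N)
  rwa [qExpand_one_apply] at h

theorem transcendental_j : Transcendental κ (⟨jqModC κ, jqModC_mem N⟩ :
    modularFunctionFieldFullC κ N) := by
  have h1 : Transcendental κ (jqModC κ) := Fermat.Agent.ModPoly.transcendental_jqModC
  intro h
  apply h1
  obtain ⟨p, hp0, hp⟩ := h
  refine ⟨p, hp0, ?_⟩
  have h2 := Polynomial.aeval_algHom_apply (modularFunctionFieldFullC κ N).val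
    (⟨jqModC κ, jqModC_mem N⟩ : modularFunctionFieldFullC κ N) p
  rw [hp, map_zero] at h2
  exact h2

/-- finiteness of the classes fixed by the square of Frobenius -/
theorem finite_fixed : {z : Pic0 κ (modularFunctionFieldFullC κ N) |
    frobS κ q N • (frobS κ q N • z) = z}.Finite := by
  have h := Fermat.Agent.PIC.finite_fixed_classes (K := κ) (F := modularFunctionFieldFullC κ N)
    (frobS κ q N * frobS κ q N) (q := q ^ 2) (by
      have := hq.out.two_le
      nlinarith) (by
      intro a
      rw [mul_smul]
      apply Subtype.ext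
      rw [coe_frobAut_smul, coe_frobAut_smul]
      show coeffMap (frobenius κ q) (coeffMap (frobenius κ q) (algebraMap κ (LaurentSeries κ) a)) =
        algebraMap κ (LaurentSeries κ) (a ^ q ^ 2)
      have h3 : ∀ b : κ, coeffMap (frobenius κ q) (algebraMap κ (LaurentSeries κ) b) =
          algebraMap κ (LaurentSeries κ) (b ^ q) := by
        intro b
        rw [ModularCurve.algebraMap_laurentSeries_eq_single, ModularCurve.algebraMap_laurentSeries_eq_single,
          coeffMap_single, frobenius_def]
      rw [h3, h3, ← pow_mul, pow_two])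
    (transcendental_j N) (by
      rw [mul_smul]
      apply Subtype.ext
      rw [coe_frobAut_smul, coe_frobAut_smul, coeffMap_jqModC, coeffMap_jqModC])
  refine h.subset fun z hz => ?_
  show (frobS κ q N * frobS κ q N) • z = z
  rw [mul_smul]
  exact hz

end Fixed

section Main

variable (N : ℕ) [NeZero N] {q : ℕ} (hq : q.Prime) (hqN : ¬ q ∣ N)
  {A : ValuationSubring Qb} (hA : A.LiesOverPrime q)
  (hNκ : (N : IsLocalRing.ResidueField A) ≠ 0)
  [CharP (IsLocalRing.ResidueField A) q] [Fact q.Prime]
  {r : Place Qb (modularFunctionFieldBar N) →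
    Place (IsLocalRing.ResidueField A) (modularFunctionFieldFullC (IsLocalRing.ResidueField A) N)}
  (hr : IsReduction (dat A (IsLocalRing.residue A) IsLocalRing.residue_surjective N hNκ) r)

/-- the Frobenius on the reduction -/
def FrJ (A : ValuationSubring Qb) (q : ℕ) [CharP (IsLocalRing.ResidueField A) q]
    [Fact q.Prime] : Pic0 (IsLocalRing.ResidueField A)
      (modularFunctionFieldFullC (IsLocalRing.ResidueField A) N) →+
      Pic0 (IsLocalRing.ResidueField A)
      (modularFunctionFieldFullC (IsLocalRing.ResidueField A) N) :=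
  DistribSMul.toAddMonoidHom _ (frobS (IsLocalRing.ResidueField A) q N)

include hA in
/-- **`LQHyp` for `J₀(N)`.** -/
theorem lqHyp (hiso : ∀ (n : ℕ) (x y : JZero N), x ∈ primT (PEis N q) (JZero N) (q ^ n) →
      y ∈ primT (PEis N q) (JZero N) (q ^ n) → spHom hr x = 0 → spHom hr y = 0 →
      weil (q ^ n) x y = 1) :
    LQHyp (PEis N q) (JZero N) q A (genT N ⟨⟨q, hq⟩, hqN⟩) (fun n x y => weil (q ^ n) x y)
      (spHom hr) (FrJ N A q) where
  hA := hA
  add_left n x x' y hx hx' hy := weil_add_left hx hx' hy
  add_right n x y y' hx hy hy' := weil_add_right hx hy hy'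
  pow n x y hx hy := weil_pow hx hy
  symm n x y hx hy := weil_symm hx hy
  nondeg n x hx h := weil_nondeg_left' (pow_pos hq.pos n) hx h
  level n m x y hx hy := by
    have h := Fermat.Agent.Ribet.weil_level (n := q ^ n) (m := q ^ m) hx
      (by rw [← _root_.pow_add]; exact hy)
    rw [_root_.pow_add]
    exact h
  gal n x y σ hx hy := by
    rw [galois_smul_pic0_def, galois_smul_pic0_def, weil_smul _ hx hy]
    apply Units.ext
    rw [Units.coe_map, baseAut_arithmeticGalois]
    rfl
  hecke n t x y hx hy := weil_hsmul N t hx hy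
  iner s hs x := by
    obtain ⟨σA, h1, h2⟩ := exists_of_inertia hs
    have h3 := spHom_galois A (IsLocalRing.residue A) IsLocalRing.residue_surjective N hNκ hr s 1
      σA (RingHom.id _) h1 h2 (coe_one_smul _) x
    rwa [one_smul] at h3
  frob σ hσ x := by
    obtain ⟨σA, h1, h2⟩ := exists_of_frobenius hσ
    exact spHom_galois A (IsLocalRing.residue A) IsLocalRing.residue_surjective N hNκ hr σ
      (frobS (IsLocalRing.ResidueField A) q N) σA _ h1 h2 (coe_frobAut_smul _ (full_stable N) q) x
  es x := by
    have h1 := spHom_hecke_eq A (IsLocalRing.residue A) IsLocalRing.residue_surjective N hNκ hr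
      q hqN x
    have h2 : spHom hr (genT N ⟨⟨q, hq⟩, hqN⟩ • x) = spHom hr (heckeOperatorAlong Qb N q x) := by
      rw [genT_smul]
      rfl
    rw [h2, h1, map_add, map_nsmul]
    congr 2
    exact smul_inv_smul _ _
  fix := finite_fixed N
  iso := hiso

end Main

end Fermat.Agent.MazLQ
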