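import Fermat.Agent.MazLQ.IsoJ
import Fermat.Agent.MazLQ.HypJ
import Fermat.Agent.MazK2.K2
import Fermat.Agent.MazLQB.Main
import Fermat.Agent.MzGal.EisFin

/-!
# The local data at `q` for the Eisenstein part of `J₀(N)`
-/

set_option autoImplicit false
set_option linter.unusedSectionVars false
set_option maxHeartbeats 1000000
set_option synthInstance.maxHeartbeats 400000

noncomputable section

open AlgebraicCurve Module ModularCurve IntermediateField HahnSeries

attribute [-instance] Fermat.Agent.X0Places.ffField Fermat.Agent.X0Places.ffAlgebra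

namespace Fermat.Agent.MazLQ

open Fermat.Agent.FunField Fermat.Agent.FunField.PlaceLemmas Fermat.Agent.HeckeRed
  Fermat.Agent.Degen Fermat.Agent.WeilPairing Fermat.Agent.MzGal Fermat.Agent.Deuring

local notation "Qb" => AlgebraicClosure ℚ
local notation "Γ" => (AlgebraicClosure ℚ ≃ₐ[ℚ] AlgebraicClosure ℚ)

section Main

variable (N : ℕ) [NeZero N] {q : ℕ} (hq : q.Prime) (hqN : ¬ q ∣ N)
  {A : ValuationSubring Qb} (hA : A.LiesOverPrime q)
  (hNκ : (N : IsLocalRing.ResidueField A) ≠ 0)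
  [CharP (IsLocalRing.ResidueField A) q] [Fact q.Prime]
  {r : Place Qb (modularFunctionFieldBar N) →
    Place (IsLocalRing.ResidueField A) (modularFunctionFieldFullC (IsLocalRing.ResidueField A) N)}
  (hr : IsReduction (dat A (IsLocalRing.residue A) IsLocalRing.residue_surjective N hNκ) r)

theorem genT_sub_one_mem : genT N ⟨⟨q, hq⟩, hqN⟩ - 1 ∈ PEis N q := by
  rw [mem_PEis, map_sub, map_one]
  have h1 : eps N (genT N ⟨⟨q, hq⟩, hqN⟩) = (q : ℤ) + 1 :=
    MvPolynomial.eval_X (f := fun ℓ : GoodPrime N => (((ℓ.1 : ℕ) : ℤ) + 1)) _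
  rw [h1]
  exact ⟨1, by ring⟩

theorem spHom_genT (x : JZero N) (hx : spHom hr x = 0) :
    spHom hr (genT N ⟨⟨q, hq⟩, hqN⟩ • x) = 0 := by
  have h1 := spHom_hecke_eq A (IsLocalRing.residue A) IsLocalRing.residue_surjective N hNκ hr
    q hqN x
  have h2 : spHom hr (genT N ⟨⟨q, hq⟩, hqN⟩ • x) = spHom hr (heckeOperatorAlong Qb N q x) := by
    rw [genT_smul]
    rfl
  rw [h2, h1, hx, sl_smul_zero, sl_smul_zero, smul_zero, add_zero]

include hA hq hqN in
/-- **isotropy** of the Eisenstein part of the kernel of reduction -/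
theorem hiso (n : ℕ) (x y : JZero N) (hx : x ∈ primT (PEis N q) (JZero N) (q ^ n))
    (hy : y ∈ primT (PEis N q) (JZero N) (q ^ n)) (hx0 : spHom hr x = 0)
    (hy0 : spHom hr y = 0) : weil (q ^ n) x y = 1 := by
  have hfin : {z : JZero N | q ^ n • z = 0}.Finite :=
    Fermat.Agent.MW.finite_torsion (pow_pos hq.pos n)
  refine isotropyJ q hr Fermat.Agent.MazK2.k2 hA hqN (fun σ hσ => exists_of_frobenius hσ) n
    {z : JZero N | z ∈ primT (PEis N q) (JZero N) (q ^ n) ∧ spHom hr z = 0}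
    (hfin.subset fun z hz => hz.1.2) ?_ (fun z hz => hz.1.2) (fun z hz => hz.2) x ⟨hx, hx0⟩
    y ⟨hy, hy0⟩
  rintro z ⟨hz, hz0⟩
  set T := genT N ⟨⟨q, hq⟩, hqN⟩ with hT
  obtain ⟨k, hk⟩ := hz.1
  have hk' : (1 - T) ^ k • z = 0 := by
    apply hk
    apply Ideal.pow_mem_pow
    have := neg_mem (genT_sub_one_mem N hq hqN)
    rwa [neg_sub] at this
  have hstab : ∀ i : ℕ, (1 - T) ^ i • z ∈ {z : JZero N |
      z ∈ primT (PEis N q) (JZero N) (q ^ n) ∧ spHom hr z = 0} := by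
    intro i
    induction i with
    | zero => rw [pow_zero, one_smul]; exact ⟨hz, hz0⟩
    | succ i ih =>
      rw [pow_succ', mul_smul]
      refine ⟨Submodule.smul_mem _ _ ih.1, ?_⟩
      rw [sub_smul, one_smul, map_sub, ih.2, spHom_genT N hq hqN hNκ hr _ ih.2, sub_zero]
  refine ⟨(∑ i ∈ Finset.range k, (1 - T) ^ i) • z, ⟨Submodule.smul_mem _ _ hz, ?_⟩, ?_⟩
  · rw [Finset.sum_smul, map_sum]
    exact Finset.sum_eq_zero fun i _ => (hstab i).2
  · have h1 : T * ∑ i ∈ Finset.range k, (1 - T) ^ i = 1 - (1 - T) ^ k := by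
      have := mul_neg_geom_sum (1 - T) k
      rwa [sub_sub_cancel] at this
    have h2 : T • ((∑ i ∈ Finset.range k, (1 - T) ^ i) • z) = z := by
      rw [← mul_smul, h1, sub_smul, one_smul, hk', sub_zero]
    exact (genT_smul N ⟨⟨q, hq⟩, hqN⟩ _).symm.trans h2

end Main

/-- **BLOCK LQ for `J₀(N)`.** -/
theorem lqOut (N : ℕ) [hN : Fact N.Prime] {q : ℕ} (hq : q.Prime) (hqN : q ≠ N)
    {A : ValuationSubring Qb} (hA : A.LiesOverPrime q) :
    LQOut (PEis N q) (JZero N) q A := by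
  have hqN' : ¬ q ∣ N := fun h => hqN ((Nat.prime_dvd_prime_iff_eq hq hN.out).1 h)
  have i1 : IsAlgClosed (IsLocalRing.ResidueField A) := isAlgClosed_residueField A
  have i2 : CharP (IsLocalRing.ResidueField A) q := charP_residueField hq hA
  have i3 : Fact q.Prime := ⟨hq⟩
  have hNκ : (N : IsLocalRing.ResidueField A) ≠ 0 := fun h =>
    hqN' ((CharP.cast_eq_zero_iff _ q N).mp h)
  obtain ⟨g, h1, h2⟩ := Fermat.Agent.Cusps.genusEq N A hNκ
  obtain ⟨r, hr1, hr2⟩ := (dat A (IsLocalRing.residue A) IsLocalRing.residue_surjective N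
    hNκ).exists_reduction h1 h2
  have hr : IsReduction (dat A (IsLocalRing.residue A) IsLocalRing.residue_surjective N hNκ) r :=
    ⟨hr1, hr2⟩
  exact Fermat.Agent.MazLQB.locQ_of_hyp (galMod N hq hN.out)
    (lqHyp N hq hqN' hA hNκ hr fun n x y => hiso N hq hqN' hA hNκ hr n x y)

/-- the local data at `q` -/
theorem exists_locQ (N : ℕ) [hN : Fact N.Prime] {q : ℕ} (hq : q.Prime) (hqN : q ≠ N) :
    ∃ (Aq : ValuationSubring Qb) (cQ : ℕ), Aq.LiesOverPrime q ∧ cQ ≠ 0 ∧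
      ∀ n, ∃ M0, LocQ (PEis N q) (JZero N) q Aq cQ n M0 := by
  obtain ⟨A, hA⟩ := Fermat.Agent.Frob.exists_liesOverPrime Qb hq
  obtain ⟨c, hc, h⟩ := lqOut N hq hqN hA
  exact ⟨A, c, hA, hc, h⟩

/-- `HasLocal` from the data at `N`. -/
theorem hasLocal (N : ℕ) [hN : Fact N.Prime] {q : ℕ} (hq : q.Prime) (hqN : q ≠ N)
    {AN : ValuationSubring Qb} (hAN : AN.LiesOverPrime N) {cN : ℕ} (hcN : cN ≠ 0)
    (h : ∀ n, LocN (PEis N q) (JZero N) q AN cN n) : HasLocal N q := by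
  obtain ⟨A, c, hA, hc, h1⟩ := exists_locQ N hq hqN
  exact ⟨A, AN, c, cN, hA, hAN, hc, hcN, h1, h⟩

end Fermat.Agent.MazLQ
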