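import Fermat.Agent.Degen.HeckeEq
import Fermat.Agent.WeilPairing.Nondeg
import Fermat.Agent.AtkinLehner.Basic
import Fermat.Agent.MzGal.Hecke

/-!
# Hecke operators are self-adjoint for the Weil pairing
-/

set_option autoImplicit false
set_option linter.unusedSectionVars false
set_option linter.style.haveILetI false

noncomputable section

open AlgebraicCurve Module ModularCurve

namespace Fermat.Agent.MazLQ

open Fermat.Agent.FunField Fermat.Agent.FunField.PlaceLemmas Fermat.Agent.HeckeRed
  Fermat.Agent.Degen Fermat.Agent.WeilPairing Fermat.Agent.AtkinLehner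

section Along

variable {K F F' : Type*} [Field K] [IsAlgClosed K] [Field F] [Field F']
  [Algebra K F] [Algebra K F'] [IsFF K F] [IsFF K F']

attribute [local instance] isCurveOver PushPull.fundamentalIdentity

/-- adjointness of pull-back and push-forward along a homomorphism -/
theorem weil_pullPic (φ : F →ₐ[K] F') {n : ℕ} {x : Pic0 K F} {y : Pic0 K F'} (hx : n • x = 0)
    (hy : n • y = 0) : weil n (pullPic φ x) y = weil n x (pushPic φ y) := by
  letI := algebraAlong φ
  haveI := isScalarTower_along φ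
  haveI := isIntegral_along φ (isIntegral_of_isFF φ)
  haveI : Module.Finite F F' := finiteAlong_of_isFF φ
  have h := weil_pullback_left (K := K) (F := F) (F' := F') hx hy
  have h1 : pullPic φ x = Pic0.pullbackHom F' x := by
    obtain ⟨D, rfl⟩ := Pic0.mk_surjective x
    rfl
  have h2 : pushPic φ y = Pic0.pushforwardHom K F F' (PushPull.pushforwardNormFormula K F F') y := by
    obtain ⟨D, rfl⟩ := Pic0.mk_surjective y
    rfl
  rw [h1, h2]
  exact h

theorem nsmul_pullPic (φ : F →ₐ[K] F') {n : ℕ} {x : Pic0 K F} (hx : n • x = 0) :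
    n • pullPic φ x = 0 := by rw [← map_nsmul, hx, map_zero]

theorem nsmul_pushPic (φ : F →ₐ[K] F') {n : ℕ} {x : Pic0 K F'} (hx : n • x = 0) :
    n • pushPic φ x = 0 := by rw [← map_nsmul, hx, map_zero]

theorem weil_pushPic (φ : F →ₐ[K] F') {n : ℕ} {x : Pic0 K F'} {y : Pic0 K F} (hx : n • x = 0)
    (hy : n • y = 0) : weil n (pushPic φ x) y = weil n x (pullPic φ y) := by
  rw [weil_symm hy (nsmul_pushPic φ hx), ← weil_pullPic φ hy hx,
    weil_symm hx (nsmul_pullPic φ hy), inv_inv]

/-- a correspondence with an involution exchanging the two maps is self-adjoint -/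
theorem weil_corr (α β : F →ₐ[K] F') (e : F' ≃ₐ[K] F') (h1 : e.toAlgHom.comp α = β)
    (h2 : e.toAlgHom.comp β = α) {n : ℕ} {x y : Pic0 K F} (hx : n • x = 0) (hy : n • y = 0) :
    weil n (pushPic α (pullPic β x)) y = weil n x (pushPic α (pullPic β y)) := by
  have key : pushPic β (pullPic α y) = pushPic α (pullPic β y) := by
    rw [pushPic_congr h1.symm, pullPic_congr h2.symm, ← pushPic_pushPic, ← pullPic_pullPic,
      pushPic_pullPic_equiv]
  rw [weil_pushPic α (nsmul_pullPic β hx) hy, weil_pullPic β hx (nsmul_pullPic α hy), key]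

end Along

section Modular

variable {K : Type*} [Field K] [IsAlgClosed K]

theorem exists_involution {N p : ℕ} [NeZero N] [hp : Fact p.Prime] [NeZero p]
    (hNK : (N : K) ≠ 0) (hpK : (p : K) ≠ 0) (hpN : ¬ p ∣ N)
    {E E' : IntermediateField K (LaurentSeries K)} (hE : E = modularFunctionFieldFullC K N)
    (hE' : E' = modularFunctionFieldFullC K (N * p)) (α β : E →ₐ[K] E')
    (hα : ∀ x, (α x : LaurentSeries K) = x)
    (hβ : ∀ x, (β x : LaurentSeries K) = qExpand K p (x : LaurentSeries K)) :
    ∃ e : E' ≃ₐ[K] E', e.toAlgHom.comp α = β ∧ e.toAlgHom.comp β = α := by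
  subst hE hE'
  refine ⟨w hNK hpK hpN, ?_, ?_⟩
  · refine AlgHom.ext fun x => Subtype.ext ?_
    rw [hβ]
    have h1 : ((α x : modularFunctionFieldFullC K (N * p)) : LaurentSeries K) ∈
        modularFunctionFieldFullC K N := by rw [hα]; exact x.2
    have h2 := w_apply_of_mem hNK hpK hpN h1 (α x).2
    have h4 : qExpand K p (x : LaurentSeries K) =
        qExpand K p ((α x : modularFunctionFieldFullC K (N * p)) : LaurentSeries K) := by rw [hα]
    rw [h4]
    exact h2
  · refine AlgHom.ext fun x => Subtype.ext ?_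
    rw [hα]
    have h3 : qExpand K p (x : LaurentSeries K) ∈ modularFunctionFieldFullC K (N * p) := by
      rw [← hβ]; exact (β x).2
    have h2 := w_qExpand hNK hpK hpN x.2 h3
    have h4 : β x = ⟨qExpand K p (x : LaurentSeries K), h3⟩ := Subtype.ext (hβ x)
    show ((w hNK hpK hpN (β x) : modularFunctionFieldFullC K (N * p)) : LaurentSeries K) = _
    rw [h4]
    exact h2

end Modular

section Bar

local notation "Qb" => AlgebraicClosure ℚ

open Fermat.Agent.MzGal

/-- **Hecke operators are self-adjoint for the Weil pairing.** -/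
theorem weil_heckeOperatorBar (N : ℕ) [NeZero N] (ℓ : Nat.Primes) (hℓ : ¬ (ℓ : ℕ) ∣ N) {n : ℕ}
    {x y : JZero N} (hx : n • x = 0) (hy : n • y = 0) :
    weil n (heckeOperatorBar N ℓ x) y = weil n x (heckeOperatorBar N ℓ y) := by
  haveI : Fact (ℓ : ℕ).Prime := ⟨ℓ.2⟩
  haveI : NeZero (ℓ : ℕ) := ⟨ℓ.2.ne_zero⟩
  have h1 : ∀ z : JZero N, heckeOperatorBar N ℓ z =
      pushPic (heckeAlphaBar Qb N ℓ) (pullPic (heckeBetaBar Qb N ℓ) z) := fun z =>
    Degen.heckeOperatorAlong_apply N ℓ z
  obtain ⟨e, he1, he2⟩ := exists_involution (K := Qb) (N := N) (p := ℓ)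
    (natCast_ne_zero' (NeZero.ne N)) (natCast_ne_zero' ℓ.2.ne_zero) hℓ
    (HeckeRed.laurentBaseChange_full Qb N) (HeckeRed.laurentBaseChange_full Qb (N * ℓ))
    (heckeAlphaBar Qb N ℓ) (heckeBetaBar Qb N ℓ) (coe_heckeAlphaBar N ℓ) (coe_heckeBetaBar N ℓ)
  rw [h1, h1]
  exact weil_corr _ _ e he1 he2 hx hy

theorem hsmul_tors {N : ℕ} [NeZero N] (t : HRing N) {n : ℕ} {x : JZero N} (hx : n • x = 0) :
    n • (t • x) = 0 := by
  rw [smul_comm, hx, smul_zero]

/-- the Hecke ring acts by self-adjoint operators -/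
theorem weil_hsmul (N : ℕ) [NeZero N] (t : HRing N) {n : ℕ}
    {x y : JZero N} (hx : n • x = 0) (hy : n • y = 0) :
    weil n (t • x) y = weil n x (t • y) := by
  induction t using MvPolynomial.induction_on generalizing x y with
  | C a =>
    rw [C_smul, C_smul]
    obtain ⟨m, rfl | rfl⟩ := a.eq_nat_or_neg
    · rw [natCast_zsmul, natCast_zsmul, weil_nsmul_left hx hy, weil_nsmul_right hx hy]
    · rw [neg_zsmul, neg_zsmul, natCast_zsmul, natCast_zsmul,
        weil_neg_left (by rw [smul_comm, hx, smul_zero]) hy,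
        weil_neg_right hx (by rw [smul_comm, hy, smul_zero]),
        weil_nsmul_left hx hy, weil_nsmul_right hx hy]
  | add s t hs ht =>
    rw [add_smul, add_smul, weil_add_left (hsmul_tors s hx) (hsmul_tors t hx) hy,
      weil_add_right hx (hsmul_tors s hy) (hsmul_tors t hy), hs hx hy, ht hx hy]
  | mul_X s ℓ hs =>
    have h1 : ∀ z : JZero N, (s * MvPolynomial.X ℓ) • z = genT N ℓ • (s • z) := by
      intro z
      rw [mul_comm, mul_smul]
      rfl
    have h2 : ∀ z : JZero N, (s * MvPolynomial.X ℓ) • z = s • (genT N ℓ • z) := by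
      intro z
      rw [mul_smul]
      rfl
    rw [h1 x, h2 y, genT_smul, genT_smul, weil_heckeOperatorBar N ℓ.1 ℓ.2 (hsmul_tors s hx) hy,
      hs hx]
    rw [← genT_smul]
    exact hsmul_tors _ hy

end Bar

end Fermat.Agent.MazLQ
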