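import Fermat.Agent.MazLQ.Conc
import Fermat.Agent.PIC.CharP
import Fermat.Agent.GalJ.Level
import Fermat.Agent.BadRed.Arch

/-!
# Frobenius stable sets of places
-/

set_option autoImplicit false
set_option linter.unusedSectionVars false

noncomputable section

open AlgebraicCurve ModularCurve IntermediateField HahnSeries

namespace Fermat.Agent.MazLQ

open Fermat.Agent.FunField Fermat.Agent.ModDeg Fermat.Agent.ModPoly Fermat.Agent.Igusa
  Fermat.Agent.Deuring Fermat.Agent.HeckeRed Fermat.Agent.FunField.PlaceLemmas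

local notation "Qb" => AlgebraicClosure ℚ

section Hull

variable {G X : Type*} [Group G] [MulAction G X]

/-- Finite stable hulls. -/
theorem exists_hull (g : G) (hfin : ∀ P : X, ∃ m : ℕ, 0 < m ∧ g ^ m • P = P) (S : Set X)
    (hS : S.Finite) : ∃ Z : Set X, (∀ P, g • P ∈ Z ↔ P ∈ Z) ∧ S ⊆ Z ∧ Z.Finite ∧
      ∀ B : Set X, (∀ P, g • P ∈ B ↔ P ∈ B) → (∀ P ∈ S, P ∉ B) → ∀ P ∈ Z, P ∉ B := by
  refine ⟨{P | ∃ i : ℕ, ∃ Q ∈ S, P = g ^ i • Q}, ?_, ?_, ?_, ?_⟩
  · intro P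
    constructor
    · rintro ⟨i, Q, hQ, h⟩
      obtain ⟨m, hm, hmQ⟩ := hfin Q
      refine ⟨i + (m - 1), Q, hQ, ?_⟩
      have h1 : g • P = g • (g ^ (i + (m - 1)) • Q) := by
        rw [h, smul_smul, ← pow_succ', show i + (m - 1) + 1 = i + m by omega, _root_.pow_add, mul_smul,
          hmQ]
      exact smul_left_cancel g h1
    · rintro ⟨i, Q, hQ, rfl⟩
      exact ⟨i + 1, Q, hQ, by rw [pow_succ', mul_smul]⟩
  · intro P hP
    exact ⟨0, P, hP, by rw [pow_zero, one_smul]⟩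
  · have hsub : {P : X | ∃ i : ℕ, ∃ Q ∈ S, P = g ^ i • Q} ⊆
        ⋃ Q ∈ S, {P : X | ∃ i : ℕ, P = g ^ i • Q} := by
      rintro P ⟨i, Q, hQ, rfl⟩
      exact Set.mem_biUnion hQ ⟨i, rfl⟩
    refine (hS.biUnion fun Q _ => ?_).subset hsub
    obtain ⟨m, hm, hmQ⟩ := hfin Q
    have h2 : {P : X | ∃ i : ℕ, P = g ^ i • Q} ⊆ (fun i : Fin m => g ^ (i : ℕ) • Q) '' Set.univ := by
      rintro P ⟨i, rfl⟩
      refine ⟨⟨i % m, Nat.mod_lt _ hm⟩, Set.mem_univ _, ?_⟩
      have h3 : ∀ j : ℕ, (g ^ m) ^ j • Q = Q := by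
        intro j
        induction j with
        | zero => rw [pow_zero, one_smul]
        | succ j ih => rw [pow_succ, mul_smul, hmQ, ih]
      show g ^ (i % m) • Q = g ^ i • Q
      conv_rhs => rw [← Nat.mod_add_div i m, _root_.pow_add, mul_smul, pow_mul, h3]
    exact (Set.finite_univ.image _).subset h2
  · rintro B hB hSB P ⟨i, Q, hQ, rfl⟩
    have h1 : ∀ i : ℕ, g ^ i • Q ∉ B := by
      intro i
      induction i with
      | zero => rw [pow_zero, one_smul]; exact hSB Q hQ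
      | succ i ih => rw [pow_succ', mul_smul, hB]; exact ih
    exact h1 i

theorem iterate_equivariant {Γ H Y : Type*} [Group Γ] [Group H] [MulAction H Y] (ρ : Γ →* H)
    (r : Y → X) (s : Γ) (g : G) (h : ∀ Q, r (ρ s • Q) = g • r Q) (j : ℕ) (Q : Y) :
    r (ρ (s ^ j) • Q) = g ^ j • r Q := by
  induction j generalizing Q with
  | zero => rw [pow_zero, pow_zero, map_one, one_smul, one_smul]
  | succ j ih => rw [pow_succ, pow_succ, map_mul, mul_smul, mul_smul, ih, h]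

end Hull

variable {A : ValuationSubring Qb} {κ : Type} [Field κ] [IsAlgClosed κ] {π : A →+* κ}
  [IsLocalHom π] {hπ : Function.Surjective π} {N : ℕ} [NeZero N] {hN : (N : κ) ≠ 0}
  (q : ℕ) [hq : Fact q.Prime] [CharP κ q] [PerfectRing κ q]
  {r : Place Qb (laurentBaseChange Qb (modularFunctionFieldFull N)) →
    Place κ (modularFunctionFieldFullC κ N)} (hr : IsReduction (dat A π hπ N hN) r)

include hr in
/-- Frobenius orbits of places are finite. -/
theorem frob_orbit_finite (hA : A.LiesOverPrime q)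
    (hfr : ∀ σ : AlgebraicClosure ℚ ≃ₐ[ℚ] AlgebraicClosure ℚ, A.IsFrobeniusAt σ q →
      ∃ σA : A →+* A, (∀ a : A, σ a = σA a) ∧
      ∀ a : A, frobenius κ q (π a) = π (σA a))
    (P : Place κ (modularFunctionFieldFullC κ N)) : ∃ m : ℕ, 0 < m ∧
      frobAut (modularFunctionFieldFullC κ N) (full_stable N) q ^ m • P = P := by
  have hr' : (dat A π hπ N hN).IsRed r := ⟨hr.div⟩
  obtain ⟨P', rfl⟩ := hr'.surjective P
  obtain ⟨E, hE, hP'⟩ := Fermat.Agent.GalJ.level_place (modularFunctionFieldFull N) P'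
  obtain ⟨σ₀, hσ₀⟩ := Fermat.Agent.Frob.exists_isFrobeniusAt hq.out hA
  obtain ⟨m, hm, hmE⟩ := Fermat.Agent.PIC.exists_pow_fixes E σ₀
  obtain ⟨σA, h1, h2⟩ := hfr σ₀ hσ₀
  refine ⟨m, hm, ?_⟩
  have h3 : ∀ Q, r (arithmeticGalois (modularFunctionFieldFull N) σ₀ • Q) =
      frobAut (modularFunctionFieldFullC κ N) (full_stable N) q • r Q := fun Q =>
    reduction_smul hr _ _ (galois_compat (isGauss_dat A π hπ N hN)
      (arithmeticGalois (modularFunctionFieldFull N) σ₀)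
      (frobAut (modularFunctionFieldFullC κ N) (full_stable N) q) (σ₀ : Qb →+* Qb) σA
      (frobenius κ q) h1 h2 (coe_arithmeticGalois_smul _ σ₀)
      (coe_frobAut_smul (modularFunctionFieldFullC κ N) (full_stable N) q)) Q
  have h4 := iterate_equivariant (arithmeticGalois (modularFunctionFieldFull N)) r σ₀
    (frobAut (modularFunctionFieldFullC κ N) (full_stable N) q) h3 m P'
  rw [hP' _ hmE] at h4
  exact h4.symm

/-- Rank one. -/
theorem arch_of_lies (hA : A.LiesOverPrime q) (a : Qb) (ha : A.valuation a < 1) (b : Qb)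
    (hb : b ≠ 0) : ∃ m : ℕ, A.valuation a ^ m ≤ A.valuation b := by
  by_cases ha0 : a = 0
  · refine ⟨1, ?_⟩
    rw [ha0, map_zero, pow_one]
    exact zero_le
  have hq0 : (q : Qb) ≠ 0 := by exact_mod_cast hq.out.ne_zero
  have hvq0 : A.valuation (q : Qb) ≠ 0 := (Valuation.ne_zero_iff _).2 hq0
  have hvq : A.valuation (q : Qb) < 1 := A.mem_nonunits_iff.mp hA
  obtain ⟨d, n, hd, hn⟩ := Fermat.Agent.BadRed.exists_val_pow hq.out hA ha0
  obtain ⟨e, m, he, hm⟩ := Fermat.Agent.BadRed.exists_val_pow hq.out hA hb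
  have hn1 : 1 ≤ n := by
    by_contra hcon
    have h1 : A.valuation a ^ d < 1 := pow_lt_one₀ zero_le ha hd.ne'
    rw [hn] at h1
    have h2 : (1 : A.ValueGroup) ≤ A.valuation (q : Qb) ^ n := by
      obtain ⟨k, hk⟩ : ∃ k : ℕ, n = -k := ⟨(-n).toNat, by omega⟩
      rw [hk, zpow_neg, zpow_natCast]
      exact (one_le_inv₀ (zero_lt_iff.2 (pow_ne_zero _ hvq0))).2 (pow_le_one₀ zero_le hvq.le)
    exact absurd h1 (not_lt.2 h2)
  obtain ⟨n', rfl⟩ : ∃ n' : ℕ, n = n' := ⟨n.toNat, by omega⟩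
  have hn' : 1 ≤ n' := by exact_mod_cast hn1
  refine ⟨d * m.natAbs, ?_⟩
  rw [pow_mul, hn, zpow_natCast, ← pow_mul]
  refine (pow_le_pow_of_le_one zero_le hvq.le (Nat.le_mul_of_pos_left m.natAbs hn')).trans ?_
  rw [← pow_le_pow_iff_left₀ zero_le zero_le he.ne', hm, ← pow_mul]
  rcases le_total m 0 with h | h
  · obtain ⟨k, hk⟩ : ∃ k : ℕ, m = -k := ⟨(-m).toNat, by omega⟩
    rw [hk, zpow_neg, zpow_natCast]
    refine le_trans (pow_le_one₀ zero_le hvq.le) ?_
    exact (one_le_inv₀ (zero_lt_iff.2 (pow_ne_zero _ hvq0))).2 (pow_le_one₀ zero_le hvq.le)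
  · obtain ⟨k, rfl⟩ : ∃ k : ℕ, m = k := ⟨m.toNat, by omega⟩
    rw [zpow_natCast, Int.natAbs_natCast]
    exact pow_le_pow_of_le_one zero_le hvq.le (Nat.le_mul_of_pos_right k he)

end Fermat.Agent.MazLQ
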