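import Fermat.Agent.HeckeRed.Spec
import Fermat.Agent.FlatJ.Values

/-!
# Eichler–Shimura for divisors
-/

set_option autoImplicit false
set_option linter.unusedSectionVars false

noncomputable section

open AlgebraicCurve Module

namespace Fermat.Agent.MazLQ

open Fermat.Agent.FunField Fermat.Agent.FunField.PlaceLemmas Fermat.Agent.Deuring
  Fermat.Agent.PushPull Fermat.Agent.HeckeRed

variable {L k F F₁ : Type*} [Field L] [Field k] [Field F] [Field F₁] [Algebra L F]
  [Algebra k F₁] [IsFF L F] [IsFF k F₁] [IsAlgClosed L] [IsAlgClosed k]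

variable {𝔇 : Data L k F F₁} {r : Place L F → Place k F₁} (hr : IsReduction 𝔇 r)

variable {F' F₁' : Type*} [Field F'] [Field F₁'] [Algebra L F'] [Algebra k F₁']
  [IsFF L F'] [IsFF k F₁']

include hr in
/-- **Eichler–Shimura** for divisors. -/
theorem mapDomain_corr_es (φ ψ : F →ₐ[L] F') (hφ : φ.toRingHom.IsIntegral)
    (hψ : ψ.toRingHom.IsIntegral) (hFI : FundamentalIdentityAlong L φ hφ)
    (hψf : FiniteAlong L ψ)
    (g₁ : SemilinearAut k F₁) (ℓ : ℕ) (hdeg : finrankAlong L φ = ℓ + 1)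
    (hN : ∀ f : 𝔇.O, 𝔇.res f ≠ 0 → ∃ g : 𝔇.O, (g : F) = normAlong ψ (φ f) ∧
      𝔇.res g = (g₁ • 𝔇.res f) * (g₁⁻¹ • 𝔇.res f) ^ ℓ) (D : Divisor L F) :
    Finsupp.mapDomain r (Divisor.correspondence φ ψ hφ hψ D) =
      g₁ • Finsupp.mapDomain r D + ℓ • (g₁⁻¹ • Finsupp.mapDomain r D) := by
  classical
  have := corr_eq hr
    ((Finsupp.mapDomain.addMonoidHom r).comp (Divisor.correspondence φ ψ hφ hψ))
    (DistribSMul.toAddMonoidHom (Divisor k F₁) g₁ +
      ℓ • DistribSMul.toAddMonoidHom (Divisor k F₁) g₁⁻¹) (ℓ + 1)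
    (fun P => by
      rw [AddMonoidHom.comp_apply]
      exact map_nonneg_of_single (Finsupp.mapDomain.addMonoidHom r) (fun Q => by
        rw [Finsupp.mapDomain.addMonoidHom_apply, Finsupp.mapDomain_single]
        exact single_nonneg _ zero_le_one) (correspondence_single_nonneg φ ψ hφ hψ P))
    (fun P => by
      rw [AddMonoidHom.comp_apply, Finsupp.mapDomain.addMonoidHom_apply,
        degree_mapDomain, Divisor.degree_correspondence φ ψ hφ hψ hFI,
        Divisor.degree_single, Deuring.deg_eq_one, Nat.cast_one, mul_one, mul_one, hdeg]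
      push_cast
      rfl)
    (fun P => by
      simp only [AddMonoidHom.add_apply, AddMonoidHom.smul_apply,
        DistribSMul.toAddMonoidHom_apply, SemilinearAut.smul_single, map_add, map_nsmul,
        Divisor.degree_single, Deuring.deg_eq_one, Nat.cast_one, mul_one, nsmul_eq_mul]
      ring)
    (fun f hf => by
      obtain ⟨g, hg1, hg2⟩ := hN f hf
      have hf0 : (f : F) ≠ 0 := 𝔇.coe_ne_zero_of_res_ne_zero hf
      have h1 : g₁ • 𝔇.res f ≠ 0 := (smul_ne_zero_iff_ne _).mpr hf
      have h2 : g₁⁻¹ • 𝔇.res f ≠ 0 := (smul_ne_zero_iff_ne _).mpr hf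
      have hg0 : 𝔇.res g ≠ 0 := by
        rw [hg2]
        exact mul_ne_zero h1 (pow_ne_zero _ h2)
      rw [AddMonoidHom.comp_apply, Finsupp.mapDomain.addMonoidHom_apply,
        correspondence_divOf φ ψ hφ hψ hψf hf0, ← hg1, hr.mapDomain_divOf g hg0, hg2]
      simp only [AddMonoidHom.add_apply, AddMonoidHom.smul_apply,
        DistribSMul.toAddMonoidHom_apply]
      rw [← divOf_smul, ← divOf_smul]
      ext v
      rw [Finsupp.add_apply, Finsupp.smul_apply, divOf_apply, divOf_apply, divOf_apply,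
        v.ord_mul h1 (pow_ne_zero _ h2), ord_pow, nsmul_eq_mul])
    (fun P => by
      have hsub : {Q : Place k F₁ | ∃ x : Place k F₁,
          (DistribSMul.toAddMonoidHom (Divisor k F₁) g₁ +
            ℓ • DistribSMul.toAddMonoidHom (Divisor k F₁) g₁⁻¹) (Finsupp.single P 1) x ≠ 0 ∧
          (DistribSMul.toAddMonoidHom (Divisor k F₁) g₁ +
            ℓ • DistribSMul.toAddMonoidHom (Divisor k F₁) g₁⁻¹) (Finsupp.single Q 1) x ≠ 0}
          ⊆ {P, g₁⁻¹ • g₁⁻¹ • P, g₁ • g₁ • P} := by
        rintro Q ⟨x, h1, h2⟩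
        have key : ∀ R : Place k F₁, (DistribSMul.toAddMonoidHom (Divisor k F₁) g₁ +
            ℓ • DistribSMul.toAddMonoidHom (Divisor k F₁) g₁⁻¹) (Finsupp.single R 1) x ≠ 0 →
            x = g₁ • R ∨ x = g₁⁻¹ • R := by
          intro R hR
          simp only [AddMonoidHom.add_apply, AddMonoidHom.smul_apply,
            DistribSMul.toAddMonoidHom_apply, SemilinearAut.smul_single, Finsupp.add_apply,
            Finsupp.smul_apply, Finsupp.single_apply] at hR
          by_contra hcon
          push Not at hcon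
          apply hR
          rw [if_neg (Ne.symm hcon.1), if_neg (Ne.symm hcon.2)]
          simp
        simp only [Set.mem_insert_iff, Set.mem_singleton_iff]
        rcases key P h1 with h3 | h3 <;> rcases key Q h2 with h4 | h4
        · left
          exact (MulAction.injective g₁ (h3.symm.trans h4)).symm
        · right; right
          rw [h4] at h3
          rw [← h3, smul_inv_smul]
        · right; left
          rw [h4] at h3
          rw [← h3, inv_smul_smul]
        · left
          exact (MulAction.injective g₁⁻¹ (h3.symm.trans h4)).symm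
      exact (Set.toFinite _).subset hsub)
    D
  rw [AddMonoidHom.comp_apply, Finsupp.mapDomain.addMonoidHom_apply] at this
  rw [this]
  rfl

include hr in
/-- supports of the correspondence -/
theorem corr_supp (φ ψ : F →ₐ[L] F') (hφ : φ.toRingHom.IsIntegral)
    (hψ : ψ.toRingHom.IsIntegral) (hFI : FundamentalIdentityAlong L φ hφ)
    (hψf : FiniteAlong L ψ)
    (g₁ : SemilinearAut k F₁) (ℓ : ℕ) (hdeg : finrankAlong L φ = ℓ + 1)
    (hN : ∀ f : 𝔇.O, 𝔇.res f ≠ 0 → ∃ g : 𝔇.O, (g : F) = normAlong ψ (φ f) ∧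
      𝔇.res g = (g₁ • 𝔇.res f) * (g₁⁻¹ • 𝔇.res f) ^ ℓ)
    {Z : Set (Place k F₁)} (hZ : ∀ P, g₁ • P ∈ Z ↔ P ∈ Z) (D : Divisor L F)
    (hD : ∀ P, D P ≠ 0 → r P ∈ Z) (Q : Place L F)
    (hQ : Divisor.correspondence φ ψ hφ hψ D Q ≠ 0) : r Q ∈ Z := by
  classical
  have hZ' : ∀ P, g₁⁻¹ • P ∈ Z ↔ P ∈ Z := fun P => by
    rw [← hZ (g₁⁻¹ • P), smul_inv_smul]
  have key : ∀ P, r P ∈ Z → Divisor.correspondence φ ψ hφ hψ (Finsupp.single P 1) Q ≠ 0 →
      r Q ∈ Z := by
    intro P hP hne
    have h0 := correspondence_single_nonneg φ ψ hφ hψ P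
    have h1 : 0 < Divisor.correspondence φ ψ hφ hψ (Finsupp.single P 1) Q :=
      lt_of_le_of_ne (h0 Q) (Ne.symm hne)
    have h2 := FlatJ.mapDomain_apply_pos r _ Q (fun R _ => h0 R) h1
    rw [mapDomain_corr_es hr φ ψ hφ hψ hFI hψf g₁ ℓ hdeg hN, Finsupp.mapDomain_single,
      SemilinearAut.smul_single, SemilinearAut.smul_single, Finsupp.add_apply,
      Finsupp.smul_apply, Finsupp.single_apply, Finsupp.single_apply] at h2
    by_contra hcon
    rw [if_neg, if_neg] at h2
    · simp at h2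
    · intro h
      rw [← h] at hcon
      exact hcon ((hZ' _).2 hP)
    · intro h
      rw [← h] at hcon
      exact hcon ((hZ _).2 hP)
  by_contra hcon
  apply hQ
  rw [map_apply_eq_sum]
  refine Finset.sum_eq_zero fun P hP => ?_
  rw [Finsupp.mem_support_iff] at hP
  have h3 : Divisor.correspondence φ ψ hφ hψ (Finsupp.single P 1) Q = 0 := by
    by_contra hne
    exact hcon (key P (hD P hP) hne)
  rw [h3, mul_zero]

end Fermat.Agent.MazLQ
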