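import Fermat.Agent.MazLQ.Iso
import Fermat.Agent.MazLQ.DivES
import Fermat.Agent.MazLQ.KDefs
import Fermat.Agent.MazK1.K1

/-!
# The Kronecker congruence for `X₀(N)`
-/

set_option autoImplicit false
set_option linter.unusedSectionVars false

noncomputable section

open AlgebraicCurve ModularCurve IntermediateField HahnSeries

namespace Fermat.Agent.MazLQ

open Fermat.Agent.FunField Fermat.Agent.ModDeg Fermat.Agent.ModPoly Fermat.Agent.Igusa
  Fermat.Agent.Deuring Fermat.Agent.HeckeRed Fermat.Agent.FunField.PlaceLemmas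

local notation "Qb" => AlgebraicClosure ℚ

theorem normAlong_ne_zero {K F F' : Type*} [Field K] [Field F] [Field F'] [Algebra K F]
    [Algebra K F'] (ψ : F →ₐ[K] F') (hfin : FiniteAlong K ψ) {x : F'} (hx : x ≠ 0) :
    normAlong ψ x ≠ 0 := by
  unfold normAlong
  let _ := algebraAlong ψ
  have : FiniteDimensional F F' := hfin
  exact Algebra.norm_ne_zero_iff.2 hx

theorem normAlong_one {K F F' : Type*} [Field K] [Field F] [Field F'] [Algebra K F]
    [Algebra K F'] (ψ : F →ₐ[K] F') : normAlong ψ (1 : F') = 1 := by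
  unfold normAlong
  let _ := algebraAlong ψ
  rw [map_one]

/-- powers of congruent elements -/
theorem pow_congr {R : Type*} [CommRing R] (X Q U : R) (m : ℕ) :
    ∃ T, (X + Q * U) ^ m = X ^ m + Q * T := by
  obtain ⟨T, hT⟩ := sub_dvd_pow_sub_pow (X + Q * U) X m
  refine ⟨U * T, ?_⟩
  rw [add_sub_cancel_left] at hT
  rw [← mul_assoc, ← hT]
  ring

variable (A : ValuationSubring Qb) {κ : Type} [Field κ] [IsAlgClosed κ] (π : A →+* κ)
  [IsLocalHom π] (hπ : Function.Surjective π) (N : ℕ) [NeZero N] (hN : (N : κ) ≠ 0)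
  (q : ℕ) [hq : Fact q.Prime] [CharP κ q] [PerfectRing κ q]

/-- admissible sets of places -/
def AdmF (Z : Set (Place κ (modularFunctionFieldFullC κ N))) : Prop :=
  ∀ P, frobAut (modularFunctionFieldFullC κ N) (full_stable N) q • P ∈ Z ↔ P ∈ Z

/-- the norm operator on functions -/
def TfC (f : laurentBaseChange Qb (modularFunctionFieldFull N)) :
    laurentBaseChange Qb (modularFunctionFieldFull N) :=
  normAlong (heckeAlphaBar Qb N q) (heckeBetaBar Qb N q f)

/-- the Hecke correspondence on divisors -/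
def TdC : Divisor Qb (laurentBaseChange Qb (modularFunctionFieldFull N)) →+
    Divisor Qb (laurentBaseChange Qb (modularFunctionFieldFull N)) :=
  Divisor.correspondence (heckeBetaBar Qb N q) (heckeAlphaBar Qb N q)
      (betaInt Qb N q) (alphaInt Qb N q)

variable {A π hπ N hN}
variable {r : Place Qb (laurentBaseChange Qb (modularFunctionFieldFull N)) →
  Place κ (modularFunctionFieldFullC κ N)} (hr : IsReduction (dat A π hπ N hN) r)

include hr in
theorem suppC (hqN : ¬ q ∣ N) {Z : Set (Place κ (modularFunctionFieldFullC κ N))}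
    (hZ : AdmF N q Z) (D : Divisor Qb (laurentBaseChange Qb (modularFunctionFieldFull N)))
    (hD : ∀ P, D P ≠ 0 → r P ∈ Z) (Q : Place Qb (laurentBaseChange Qb (modularFunctionFieldFull N)))
    (hQ : TdC N q D Q ≠ 0) : r Q ∈ Z := by
  have hL : ((N * q : ℕ) : Qb) ≠ 0 :=
    Nat.cast_ne_zero.mpr (mul_ne_zero (NeZero.ne N) hq.out.ne_zero)
  exact corr_supp hr (heckeBetaBar Qb N q) (heckeAlphaBar Qb N q)
      (betaInt Qb N q) (alphaInt Qb N q)
      (fundamentalIdentityAlong _ _ (finiteAlong_of_isFF _)) (finiteAlong_of_isFF _)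
    (frobAut (modularFunctionFieldFullC κ N) (full_stable N) q) q
    (finrankAlong_beta_of_not_dvd (HeckeRed.laurentBaseChange_full Qb N)
      (HeckeRed.laurentBaseChange_full Qb (N * q))
      hL (heckeBetaBar Qb N q) (coe_heckeBetaBar N q) hqN)
    (fun f _ => es_compat (HeckeRed.laurentBaseChange_full Qb N)
      (HeckeRed.laurentBaseChange_full Qb (N * q))
      (heckeAlphaBar Qb N q) (heckeBetaBar Qb N q) (coe_heckeAlphaBar N q) (coe_heckeBetaBar N q)
      hqN (isTameField_bar N) (isGauss_dat A π hπ N hN)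
      (frobAut (modularFunctionFieldFullC κ N) (full_stable N) q)
      (coe_frobAut_smul (modularFunctionFieldFullC κ N) (full_stable N) q) f) hZ D hD Q hQ

theorem TfC_ne {f : laurentBaseChange Qb (modularFunctionFieldFull N)} (hf : f ≠ 0) :
    TfC N q f ≠ 0 := by
  have hβ : heckeBetaBar Qb N q f ≠ 0 := by
    rw [Ne, map_eq_zero]
    exact hf
  exact normAlong_ne_zero (heckeAlphaBar Qb N q) (finiteAlong_of_isFF _) hβ

theorem div_TfC {f : laurentBaseChange Qb (modularFunctionFieldFull N)} (hf : f ≠ 0) :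
    (divOf (TfC N q f) : Divisor Qb (laurentBaseChange Qb (modularFunctionFieldFull N))) =
      TdC N q (divOf f) :=
  (correspondence_divOf (K := Qb) (heckeBetaBar Qb N q) (heckeAlphaBar Qb N q)
      (betaInt Qb N q) (alphaInt Qb N q) (finiteAlong_of_isFF _) hf).symm

theorem qExpand_algebraMap_aux (x : Qb) :
    qExpand Qb q (algebraMap Qb (LaurentSeries Qb) x) = algebraMap Qb (LaurentSeries Qb) x := by
  rw [algebraMap_laurentSeries_eq_single, qExpand_single]
  simp

omit [IsAlgClosed κ] [PerfectRing κ q] in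
theorem algebraMap_mem_gaussRing (x : Qb) (hx : x ∈ A) :
    algebraMap Qb (LaurentSeries Qb) x ∈ gaussRing A π := by
  have h1 : algebraMap Qb (LaurentSeries Qb) x = coeffMap A.subtype (single 0 (⟨x, hx⟩ : A)) := by
    rw [coeffMap_single, algebraMap_laurentSeries_eq_single]
    rfl
  rw [h1]
  exact emb_mem_gaussRing _

include hr in
/-- **The Kronecker congruence for the norm operator.** -/
theorem kronC (k2 : K2Statement) (hA : A.LiesOverPrime q) (hqN : ¬ q ∣ N)
    (Z : Set (Place κ (modularFunctionFieldFullC κ N)))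
    (hZ : AdmF N q Z) (n : ℕ) (h : (dat A π hπ N hN).O)
    (hh : Reg r Z (h : laurentBaseChange Qb (modularFunctionFieldFull N))) (a : Qb) (ha : a ≠ 0)
    (ha1 : A.valuation a < 1) (c : Qb) (hqc : A.valuation (q : Qb) ≤ A.valuation c)
    (hac : A.valuation a ≤ A.valuation c) (hA' : (dat A π hπ N hN).A = A) :
    ∃ w k z : (dat A π hπ N hN).O,
      (TfC N q)^[n] (oneAdd a h) = oneAdd a w ∧
      Reg r Z (w : laurentBaseChange Qb (modularFunctionFieldFull N)) ∧
      Reg r Z (k : laurentBaseChange Qb (modularFunctionFieldFull N)) ∧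
      (w : laurentBaseChange Qb (modularFunctionFieldFull N)) = (k : laurentBaseChange Qb
        (modularFunctionFieldFull N)) ^ q ^ n + algebraMap Qb _ c * z := by
  have hq0 : (q : Qb) ≠ 0 := by exact_mod_cast hq.out.ne_zero
  have hc0 : c ≠ 0 := by
    rintro rfl
    rw [map_zero, le_zero_iff, map_eq_zero] at hqc
    exact hq0 hqc
  have ha1' : (dat A π hπ N hN).A.valuation a < 1 := by rw [hA']; exact ha1
  induction n with
  | zero =>
    exact ⟨h, h, 0, rfl, hh, hh, by rw [pow_zero, pow_one, ZeroMemClass.coe_zero]; ring⟩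
  | succ n ih =>
    obtain ⟨w, k, z, h1, hw, hk, hwk⟩ := ih
    -- K1
    obtain ⟨w', hw'm, hw', u, hu, v, hv, hV⟩ := Fermat.Agent.MazK1.k1 A κ π hπ q N hqN
      (w : laurentBaseChange Qb (modularFunctionFieldFull N))
      ((mem_dat A π hπ N hN).1 w.2) a ((A.valuation_le_one_iff a).1 ha1.le) ha
    -- K2
    obtain ⟨k', hk'm, hk', u', hu', hV'⟩ := k2 A κ π hπ q N hA hN r hr Z hZ
      (k : laurentBaseChange Qb (modularFunctionFieldFull N))
      ((mem_dat A π hπ N hN).1 k.2) hk
    have hTf : (TfC N q)^[n + 1] (oneAdd a h) = oneAdd a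
        (⟨w', (mem_dat A π hπ N hN).2 hw'm⟩ : (dat A π hπ N hN).O) := by
      rw [Function.iterate_succ_apply', h1]
      exact hw'
    have hr' : (dat A π hπ N hN).IsRed r := ⟨hr.div⟩
    have hregw : Reg r Z w' := by
      refine reg_of_supp (h := (⟨w', (mem_dat A π hπ N hN).2 hw'm⟩ : (dat A π hπ N hN).O))
        ha ha1' (fun P hP => ?_)
      have e1 : (oneAdd a (⟨w', (mem_dat A π hπ N hN).2 hw'm⟩ : (dat A π hπ N hN).O)) =
          TfC N q (oneAdd a w) := hw'.symm
      rw [e1] at hP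
      refine suppC q hr hqN hZ (divOf (oneAdd a w)) (fun Q hQ => ?_) P ?_
      · rw [divOf_apply] at hQ
        exact supp_oneAdd hr' ha1' hw Q hQ
      · rw [← div_TfC q (oneAdd_ne_zero ha1' w), divOf_apply]
        exact hP
    -- computations in the Gauss ring
    let S : Subring (LaurentSeries Qb) := gaussRing A π
    let V : LaurentSeries Qb →+* LaurentSeries Qb := qExpand Qb q
    let al : Qb →+* LaurentSeries Qb := algebraMap Qb (LaurentSeries Qb)
    have hVal : ∀ x, V (al x) = al x := fun x => qExpand_algebraMap_aux q x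
    have hVS : ∀ x ∈ S, V x ∈ S := fun x hx => (GaussEnd.qExp A π q).mem hx
    obtain ⟨q', hq'⟩ : ∃ q' ∈ A, (q : Qb) = c * q' := by
      refine ⟨q / c, ?_, by field_simp⟩
      rw [← A.valuation_le_one_iff, map_div₀]
      exact div_le_one_of_le₀ hqc zero_le
    obtain ⟨a', ha'⟩ : ∃ a' ∈ A, a = c * a' := by
      refine ⟨a / c, ?_, by field_simp⟩
      rw [← A.valuation_le_one_iff, map_div₀]
      exact div_le_one_of_le₀ hac zero_le
    have halS : ∀ x ∈ A, al x ∈ S := fun x hx => algebraMap_mem_gaussRing x hx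
    have hk'q : ∃ t ∈ S, (V k) ^ q ^ n = (k' : LaurentSeries Qb) ^ q ^ (n + 1) + al c * t := by
      obtain ⟨T, hT⟩ := pow_congr (⟨(k' : LaurentSeries Qb) ^ q, pow_mem hk'm q⟩ : S)
        ⟨al q, halS _ (natCast_mem A q)⟩ ⟨u', hu'⟩ (q ^ n)
      have hT' := congrArg Subtype.val hT
      refine ⟨al q' * T, mul_mem (halS _ hq'.1) T.2, ?_⟩
      have e1 : V k = (k' : LaurentSeries Qb) ^ q + al q * u' := hV'
      rw [e1]
      refine hT'.trans ?_
      show ((k' : LaurentSeries Qb) ^ q) ^ q ^ n + al q * T = _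
      rw [← pow_mul, ← pow_succ', hq'.2, map_mul, mul_assoc]
    obtain ⟨t, ht, hVk⟩ := hk'q
    have hzS : ((z : laurentBaseChange Qb (modularFunctionFieldFull N)) : LaurentSeries Qb) ∈ S :=
      (mem_dat A π hπ N hN).1 z.2
    have hwk' : ((w : laurentBaseChange Qb (modularFunctionFieldFull N)) : LaurentSeries Qb) =
        ((k : laurentBaseChange Qb (modularFunctionFieldFull N)) : LaurentSeries Qb) ^ q ^ n +
          al c * ((z : laurentBaseChange Qb (modularFunctionFieldFull N)) : LaurentSeries Qb) :=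
      congrArg Subtype.val hwk
    have hVw : ∃ t₂ ∈ S, V w = (k' : LaurentSeries Qb) ^ q ^ (n + 1) + al c * t₂ := by
      refine ⟨t + V z, add_mem ht (hVS _ hzS), ?_⟩
      rw [hwk', map_add, map_pow, map_mul, hVal, hVk]
      ring
    obtain ⟨t₂, ht₂, hVw⟩ := hVw
    have hVw' : ∃ t₃ ∈ S, V ((w' : LaurentSeries Qb) - (k' : LaurentSeries Qb) ^ q ^ (n + 1)) =
        al c * t₃ := by
      refine ⟨V t₂ + al q' * u + al a' * v, add_mem (add_mem (hVS _ ht₂)
        (mul_mem (halS _ hq'.1) hu)) (mul_mem (halS _ ha'.1) hv), ?_⟩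
      have e1 : V w' = V (V w) + al q * u + al a * v := hV
      rw [map_sub, e1, hVw, map_add, map_mul, hVal, hq'.2, ha'.2, map_mul, map_mul]
      ring
    obtain ⟨t₃, ht₃, hVw'⟩ := hVw'
    set x : laurentBaseChange Qb (modularFunctionFieldFull N) :=
      algebraMap Qb _ c⁻¹ * (w' - k' ^ q ^ (n + 1)) with hx
    have hxS : (x : LaurentSeries Qb) ∈ gaussRing A π := by
      rw [← (GaussEnd.qExp A π q).mem_iff (isTameField_bar N) x.2]
      show V (x : LaurentSeries Qb) ∈ S
      have e1 : (x : LaurentSeries Qb) = al c⁻¹ * ((w' : LaurentSeries Qb) -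
        (k' : LaurentSeries Qb) ^ q ^ (n + 1)) := rfl
      rw [e1, map_mul, hVal, hVw', ← mul_assoc, ← map_mul, inv_mul_cancel₀ hc0, map_one, one_mul]
      exact ht₃
    refine ⟨⟨w', (mem_dat A π hπ N hN).2 hw'm⟩, ⟨k', (mem_dat A π hπ N hN).2 hk'm⟩,
      ⟨x, (mem_dat A π hπ N hN).2 hxS⟩, hTf, hregw, hk', ?_⟩
    show w' = k' ^ q ^ (n + 1) + algebraMap Qb _ c * x
    rw [hx, ← mul_assoc, ← map_mul, mul_inv_cancel₀ hc0, map_one, one_mul]
    ring

include hr in
/-- The Kronecker data of `X₀(N)`. -/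
theorem kron_data (k2 : K2Statement) (hA : A.LiesOverPrime q) (hqN : ¬ q ∣ N) :
    Kron (dat A π hπ N hN) r q (AdmF N q) (TfC N q) (TdC N q) (heckeOperatorAlong Qb N q) where
  hq := hq.out
  div := fun f hf => div_TfC q hf
  ne := fun f hf => TfC_ne q hf
  deg := fun D hD => by
    have h1 := (Pic0.degZeroCorrespondence (heckeBetaBar Qb N q) (heckeAlphaBar Qb N q)
        (betaInt Qb N q) (alphaInt Qb N q)
        (fundamentalIdentityAlong _ _ (finiteAlong_of_isFF _)) ⟨D, hD⟩).2
    exact h1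
  pic := fun D => by
    rw [heckeOperatorAlong_mk]
    congr 1
  supp := fun Z hZ D hD P hP => suppC q hr hqN hZ D hD P hP
  kron := fun Z hZ n h hh a ha ha1 c h1 h2 => by
    have hA' : (dat A π hπ N hN).A = A := dat_A A π hπ N hN
    rw [hA'] at ha1 h1 h2
    obtain ⟨w, k, z, hw, -, hk, hwk⟩ := kronC q hr k2 hA hqN Z hZ n h hh a ha ha1 c h1 h2 hA'
    refine ⟨k, z, hk, ?_⟩
    rw [hw, oneAdd, hwk, map_mul]
    ring

end Fermat.Agent.MazLQ
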