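import Fermat.Agent.MazLQ.Step

/-!
# Isotropy of the kernel of reduction for the Weil pairing
-/

set_option autoImplicit false
set_option linter.unusedSectionVars false

noncomputable section

open AlgebraicCurve Module

namespace Fermat.Agent.MazLQ

open Fermat.Agent.FunField Fermat.Agent.FunField.PlaceLemmas Fermat.Agent.S27C
  Fermat.Agent.TorsInj Fermat.Agent.Deuring Fermat.Agent.FlatJ
  Fermat.Agent.WeilPairing

attribute [local instance] Fermat.Agent.WeilPairing.isCurveOver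

section Root

variable {L : Type*} [Field L] (A : ValuationSubring L)

theorem val_pow_sub_one_le {e : L} (he : e ∈ A) (n : ℕ) :
    A.valuation (e ^ n - 1) ≤ A.valuation (e - 1) := by
  have h1 : e ^ n - 1 = (∑ i ∈ Finset.range n, e ^ i) * (e - 1) := (geom_sum_mul e n).symm
  rw [h1, map_mul]
  have h2 : (∑ i ∈ Finset.range n, e ^ i) ∈ A := sum_mem fun i _ => pow_mem he i
  exact mul_le_of_le_one_left' ((A.valuation_le_one_iff _).2 h2)

theorem eq_one_of_pow {q : ℕ} {n : ℕ} {e : L} (he : e ∈ A)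
    (hn : e ^ q ^ n = 1) (hlt : A.valuation (e - 1) < A.valuation (q : L)) : e = 1 := by
  induction n generalizing e with
  | zero => simpa using hn
  | succ n ih =>
    have h1 : e ^ q = 1 := by
      refine ih (pow_mem he q) ?_ ((val_pow_sub_one_le A he q).trans_lt hlt)
      rw [← pow_mul, ← pow_succ']
      exact hn
    by_contra hne
    have hne' : e - 1 ≠ 0 := sub_ne_zero.2 hne
    have h2 : (∑ i ∈ Finset.range q, e ^ i) = 0 := by
      have h3 : (∑ i ∈ Finset.range q, e ^ i) * (e - 1) = 0 := by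
        rw [geom_sum_mul, h1, sub_self]
      exact (mul_eq_zero.1 h3).resolve_right hne'
    have h3 : (q : L) = - ∑ i ∈ Finset.range q, (e ^ i - 1) := by
      rw [Finset.sum_sub_distrib, h2]
      simp
    have h4 : A.valuation (q : L) ≤ A.valuation (e - 1) := by
      rw [h3, Valuation.map_neg]
      exact Valuation.map_sum_le _ fun i _ => val_pow_sub_one_le A he i
    exact absurd hlt (not_lt.2 h4)

/-- units congruent to one modulo `c`. -/
def Near (c : L) (u : Lˣ) : Prop := ∃ e : A, (u : L) = 1 + c * e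

variable {A}

theorem Near.one (c : L) : Near A c 1 := ⟨0, by simp⟩

theorem Near.mul {c : L} (hc : c ∈ A) {u w : Lˣ} (hu : Near A c u) (hw : Near A c w) :
    Near A c (u * w) := by
  obtain ⟨e, he⟩ := hu
  obtain ⟨f, hf⟩ := hw
  refine ⟨e + f + ⟨c, hc⟩ * e * f, ?_⟩
  rw [Units.val_mul, he, hf]
  push_cast
  ring

theorem Near.inv {c : L} (hc : A.valuation c < 1) {u : Lˣ} (hu : Near A c u) :
    Near A c u⁻¹ := by
  obtain ⟨e, he⟩ := hu
  have hcA : c ∈ A := (A.valuation_le_one_iff c).1 hc.le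
  have h1 : A.valuation (u : L) = 1 := by
    rw [he]
    have h2 : A.valuation (c * e) < 1 := by
      rw [map_mul]
      exact lt_of_le_of_lt (mul_le_of_le_one_right' ((A.valuation_le_one_iff _).2 e.2)) hc
    rw [Valuation.map_add_eq_of_lt_left, map_one]
    rwa [map_one]
  have h3 : ((u⁻¹ : Lˣ) : L) ∈ A := by
    rw [← A.valuation_le_one_iff, Units.val_inv_eq_inv_val, map_inv₀, h1, inv_one]
  refine ⟨-(e * ⟨_, h3⟩), ?_⟩
  have h4 : (u : L) * ((u⁻¹ : Lˣ) : L) = 1 := by rw [← Units.val_mul, mul_inv_cancel, Units.val_one]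
  rw [he] at h4
  show ((u⁻¹ : Lˣ) : L) = 1 + c * (-((e : L) * ((u⁻¹ : Lˣ) : L)))
  linear_combination h4

theorem Near.zpow {c : L} (hc : A.valuation c < 1) {u : Lˣ} (hu : Near A c u) (n : ℤ) :
    Near A c (u ^ n) := by
  have hcA : c ∈ A := (A.valuation_le_one_iff c).1 hc.le
  have h1 : ∀ m : ℕ, Near A c (u ^ m) := by
    intro m
    induction m with
    | zero => rw [pow_zero]; exact Near.one c
    | succ m ih => rw [pow_succ]; exact ih.mul hcA hu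
  obtain ⟨m, rfl | rfl⟩ := n.eq_nat_or_neg
  · rw [zpow_natCast]; exact h1 m
  · rw [zpow_neg, zpow_natCast]; exact (h1 m).inv hc

end Root

variable {L k F F₁ : Type*} [Field L] [Field k] [Field F] [Field F₁] [Algebra L F]
  [Algebra k F₁] [IsFF L F] [IsFF k F₁] [IsAlgClosed L] [IsAlgClosed k]
  {𝔇 : Data L k F F₁} {r : Place L F → Place k F₁}
  {q : ℕ} {Adm : Set (Place k F₁) → Prop} {Tf : F → F} {Td : Divisor L F →+ Divisor L F}
  {Tp : Pic0 L F →+ Pic0 L F}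

/-- Values of `1 + c h` on divisors away from `Z`. -/
theorem near_ev (hr : 𝔇.IsRed r) {Z : Set (Place k F₁)} {c : L} (hc : 𝔇.A.valuation c < 1)
    {h : 𝔇.O} (hh : Reg r Z (h : F)) (D : Divisor L F) (hD : ∀ P, D P ≠ 0 → r P ∉ Z) :
    Near 𝔇.A c (ev (oneAdd c h) D) := by
  have hcA : c ∈ 𝔇.A := (𝔇.A.valuation_le_one_iff c).1 hc.le
  have hne := oneAdd_ne_zero hc h
  have key : ∀ P, r P ∉ Z → Near 𝔇.A c (uval P (oneAdd c h)) := by
    intro P hP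
    have hord : P.ord (oneAdd c h) = 0 := by
      by_contra h0
      exact hP (supp_oneAdd hr hc hh P h0)
    have hmem : ∀ Q, r Q = r P → (h : F) ∈ Q.toValuationSubring := fun Q hQ =>
      S27C.mem_of_ord_nonneg (hh Q (by rw [hQ]; exact hP))
    obtain ⟨ha, -⟩ := val_red hr h P hmem
    refine ⟨⟨_, ha⟩, ?_⟩
    rw [coe_uval hne hord, oneAdd]
    rw [val_add P (one_mem _) (mul_mem (P.algebraMap_mem' _) (hmem P rfl)), val_one,
      val_mul P (P.algebraMap_mem' _) (hmem P rfl), val_algebraMap]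
  unfold ev
  rw [Finsupp.prod]
  refine Finset.prod_induction _ (Near 𝔇.A c) (fun _ _ h1 h2 => h1.mul hcA h2) (Near.one c) ?_
  intro P hP
  exact (key P (hD P (Finsupp.mem_support_iff.1 hP))).zpow hc _

omit [IsFF k F₁] [IsAlgClosed k] in
/-- Iterated improvement. -/
theorem exists_iter (K : Kron 𝔇 r q Adm Tf Td Tp) (hr : 𝔇.IsRed r)
    (hq0 : (q : L) ≠ 0) (hq1 : 𝔇.A.valuation (q : L) < 1)
    (harch : ∀ a : L, 𝔇.A.valuation a < 1 → ∀ b : L, b ≠ 0 → ∃ m : ℕ,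
      𝔇.A.valuation a ^ m ≤ 𝔇.A.valuation b)
    {n : ℕ} {Z : Set (Place k F₁)} (hZ : Adm Z) {a : L} {x : Pic0 L F} (H : Rep 𝔇 r q n Z a x)
    (ha1 : 𝔇.A.valuation a < 1) :
    ∃ b : L, b ≠ 0 ∧ 𝔇.A.valuation b < 1 ∧ ∃ J : ℕ, ∀ j, J ≤ j →
      Rep 𝔇 r q n Z (q * b) (Tp^[n * j] x) := by
  have hqn : 0 < q ^ n := pow_pos K.hq.pos n
  -- normalisation
  obtain ⟨a₀, ha₀, ha₀1, haa₀, hqa₀⟩ : ∃ a₀ : L, a₀ ≠ 0 ∧ 𝔇.A.valuation a₀ < 1 ∧
      𝔇.A.valuation a ≤ 𝔇.A.valuation a₀ ∧ 𝔇.A.valuation (q : L) ≤ 𝔇.A.valuation a₀ := by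
    rcases le_total (𝔇.A.valuation (q : L)) (𝔇.A.valuation a) with h | h
    · refine ⟨a, ?_, ha1, le_rfl, h⟩
      rintro rfl
      rw [map_zero, le_zero_iff, map_eq_zero] at h
      exact hq0 h
    · exact ⟨q, hq0, hq1, h, le_rfl⟩
  obtain ⟨b₀, hb₀⟩ := IsAlgClosed.exists_pow_nat_eq a₀ hqn
  have hb₀0 : b₀ ≠ 0 := by
    rintro rfl
    rw [zero_pow hqn.ne'] at hb₀
    exact ha₀ hb₀.symm
  have hb₀1 : 𝔇.A.valuation b₀ < 1 := by
    by_contra hcon
    rw [not_lt] at hcon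
    have := one_le_pow₀ hcon (n := q ^ n)
    rw [← map_pow, hb₀] at this
    exact absurd ha₀1 (not_lt.2 this)
  have hqb₀ : 𝔇.A.valuation (q * b₀) < 1 := by
    rw [map_mul]
    exact mul_lt_one_of_lt_of_le hq1 hb₀1.le
  have hqb₀' : 𝔇.A.valuation (q * b₀) ≤ 𝔇.A.valuation a₀ := by
    rw [map_mul]
    exact (mul_le_of_le_one_right' hb₀1.le).trans hqa₀
  have claim : ∀ j : ℕ, ∃ c : L, c ≠ 0 ∧ (𝔇.A.valuation c ≤ 𝔇.A.valuation (q * b₀) ∨
      𝔇.A.valuation c ≤ 𝔇.A.valuation a₀ ^ 2 ^ j) ∧ Rep 𝔇 r q n Z c (Tp^[n * j] x) := by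
    intro j
    induction j with
    | zero =>
      refine ⟨a₀, ha₀, Or.inr (by rw [pow_zero, pow_one]), ?_⟩
      rw [Nat.mul_zero]
      exact H.mono ha₀ haa₀
    | succ j ih =>
      obtain ⟨c, hc0, hc, hR⟩ := ih
      have hca₀ : 𝔇.A.valuation c ≤ 𝔇.A.valuation a₀ := by
        rcases hc with h | h
        · exact h.trans hqb₀'
        · exact h.trans (pow_le_of_le_one zero_le ha₀1.le (pow_ne_zero _ two_ne_zero))
      have hc1 : 𝔇.A.valuation c < 1 := hca₀.trans_lt ha₀1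
      obtain ⟨b, hb⟩ := IsAlgClosed.exists_pow_nat_eq c hqn
      have hb0 : b ≠ 0 := by
        rintro rfl
        rw [zero_pow hqn.ne'] at hb
        exact hc0 hb.symm
      have hbb₀ : 𝔇.A.valuation b ≤ 𝔇.A.valuation b₀ := by
        rw [← pow_le_pow_iff_left₀ zero_le zero_le hqn.ne', ← map_pow, ← map_pow, hb, hb₀]
        exact hca₀
      have hbound1 : 𝔇.A.valuation (q * b) ≤ 𝔇.A.valuation (q * b₀) := by
        rw [map_mul, map_mul]
        exact mul_le_mul_right hbb₀ _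
      have hbound2 : 𝔇.A.valuation (c * c) ≤ 𝔇.A.valuation (q * b₀) ∨
          𝔇.A.valuation (c * c) ≤ 𝔇.A.valuation a₀ ^ 2 ^ (j + 1) := by
        rcases hc with h | h
        · left
          rw [map_mul]
          exact (mul_le_of_le_one_right' hc1.le).trans h
        · right
          rw [map_mul, pow_succ, pow_mul, pow_two]
          exact mul_le_mul' h h
      have hadd : Tp^[n * (j + 1)] x = Tp^[n] (Tp^[n * j] x) := by
        rw [← Function.iterate_add_apply, Nat.mul_succ, Nat.add_comm]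
      rw [hadd]
      rcases le_total (𝔇.A.valuation (q * b)) (𝔇.A.valuation (c * c)) with h | h
      · exact ⟨c * c, mul_ne_zero hc0 hc0, hbound2,
          hR.step K hr hZ hc0 hc1 (mul_ne_zero hc0 hc0) hb h le_rfl⟩
      · exact ⟨q * b, mul_ne_zero hq0 hb0, Or.inl hbound1,
          hR.step K hr hZ hc0 hc1 (mul_ne_zero hq0 hb0) hb le_rfl h⟩
  obtain ⟨J, hJ⟩ := harch a₀ ha₀1 (q * b₀) (mul_ne_zero hq0 hb₀0)
  refine ⟨b₀, hb₀0, hb₀1, J, fun j hj => ?_⟩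
  obtain ⟨c, -, hc, hR⟩ := claim j
  refine hR.mono (mul_ne_zero hq0 hb₀0) ?_
  rcases hc with h | h
  · exact h
  · refine h.trans (le_trans ?_ hJ)
    refine pow_le_pow_of_le_one zero_le ha₀1.le ?_
    exact hj.trans (Nat.lt_two_pow_self).le

/-- the value of the pairing for good representatives. -/
theorem weil_eq_one (hr : 𝔇.IsRed r) (hq : q.Prime) (hq0 : (q : L) ≠ 0)
    (hq1 : 𝔇.A.valuation (q : L) < 1) {n : ℕ} {Z Z' : Set (Place k F₁)}
    (hZZ : ∀ P, P ∈ Z → P ∉ Z') {b b' : L} (hb : b ≠ 0) (hb1 : 𝔇.A.valuation b < 1) (hb' : b' ≠ 0)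
    (hb'1 : 𝔇.A.valuation b' < 1) {x y : Pic0 L F} (hx : q ^ n • x = 0) (hy : q ^ n • y = 0)
    (H : Rep 𝔇 r q n Z (q * b) x)
    (H' : Rep 𝔇 r q n Z' (q * b') y) : weil (q ^ n) x y = 1 := by
  -- a common constant
  obtain ⟨d, hd, hd1, hbd, hbd'⟩ : ∃ d : L, d ≠ 0 ∧ 𝔇.A.valuation d < 1 ∧
      𝔇.A.valuation b ≤ 𝔇.A.valuation d ∧ 𝔇.A.valuation b' ≤ 𝔇.A.valuation d := by
    rcases le_total (𝔇.A.valuation b) (𝔇.A.valuation b') with h | h
    · exact ⟨b', hb', hb'1, h, le_rfl⟩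
    · exact ⟨b, hb, hb1, le_rfl, h⟩
  have hqd0 : (q : L) * d ≠ 0 := mul_ne_zero hq0 hd
  have hqd1 : 𝔇.A.valuation (q * d) < 1 := by
    rw [map_mul]; exact mul_lt_one_of_lt_of_le hq1 hd1.le
  have hqn : q ^ n ≠ 0 := pow_ne_zero _ hq.ne_zero
  obtain ⟨D, f, hD, hDf, hDs⟩ := H.mono hqd0 (by rw [map_mul, map_mul]; exact mul_le_mul_right hbd _)
  obtain ⟨E, g, hE, hEg, hEs⟩ := H'.mono hqd0
    (by rw [map_mul, map_mul]; exact mul_le_mul_right hbd' _)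
  have hsupp : ∀ {D : Divisor.degZero (K := L) (F := F)} {f : 𝔇.O} {W : Set (Place k F₁)},
      divOf (oneAdd (q * d) f) = (q ^ n) • (D : Divisor L F) →
      (∀ P, (D : Divisor L F) P ≠ 0 → r P ∈ W) → ∀ P, P.ord (oneAdd (q * d) f) ≠ 0 → r P ∈ W := by
    intro D f W h1 h2 P hP
    apply h2
    intro h0
    apply hP
    rw [← divOf_apply, h1, Finsupp.smul_apply, h0, smul_zero]
  have hf := reg_of_supp hqd0 hqd1 (hsupp hDf hDs)
  have hg := reg_of_supp hqd0 hqd1 (hsupp hEg hEs)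
  have hval : weil (q ^ n) x y = ev (oneAdd (q * d) f) (E : Divisor L F) /
      ev (oneAdd (q * d) g) (D : Divisor L F) := by
    rw [← hD, ← hE]
    refine weil_eq_div D E (oneAdd_ne_zero hqd1 f) (oneAdd_ne_zero hqd1 g) hDf hEg ?_
    intro P
    by_contra hcon
    push Not at hcon
    exact hZZ _ (hDs P hcon.1) (hEs P hcon.2)
  have hn1 := near_ev hr hqd1 hf (E : Divisor L F) (fun P hP hPZ => hZZ _ hPZ (hEs P hP))
  have hn2 := near_ev hr hqd1 hg (D : Divisor L F) (fun P hP hPZ => hZZ _ (hDs P hP) hPZ)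
  have hqdA : (q : L) * d ∈ 𝔇.A := (𝔇.A.valuation_le_one_iff _).1 hqd1.le
  have hn3 := hn1.mul hqdA (hn2.inv hqd1)
  rw [← div_eq_mul_inv, ← hval] at hn3
  obtain ⟨e, he⟩ := hn3
  have hpow := weil_pow hx hy
  apply Units.ext
  rw [Units.val_one]
  refine eq_one_of_pow 𝔇.A (q := q) (n := n) ?_ ?_ ?_
  · rw [he]
    exact add_mem (one_mem _) (mul_mem hqdA e.2)
  · rw [← Units.val_pow_eq_pow_val, hpow, Units.val_one]
  · rw [he, add_sub_cancel_left, map_mul, map_mul]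
    have hqv : 0 < 𝔇.A.valuation (q : L) := zero_lt_iff.2 ((Valuation.ne_zero_iff _).2 hq0)
    calc 𝔇.A.valuation (q : L) * 𝔇.A.valuation d * 𝔇.A.valuation (e : L)
        ≤ 𝔇.A.valuation (q : L) * 𝔇.A.valuation d := 
          mul_le_of_le_one_right' ((𝔇.A.valuation_le_one_iff _).2 e.2)
      _ < 𝔇.A.valuation (q : L) := mul_lt_of_lt_one_right hqv hd1

/-- **Isotropy.** -/
theorem isotropy (K : Kron 𝔇 r q Adm Tf Td Tp) (hr : 𝔇.IsFullRed r)
    (hq0 : (q : L) ≠ 0) (hq1 : 𝔇.A.valuation (q : L) < 1)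
    (harch : ∀ a : L, 𝔇.A.valuation a < 1 → ∀ b : L, b ≠ 0 → ∃ m : ℕ,
      𝔇.A.valuation a ^ m ≤ 𝔇.A.valuation b)
    (hAdm : ∀ S : Set (Place k F₁), S.Finite → ∃ Z, Adm Z ∧ S ⊆ Z ∧ Z.Finite ∧
      ∀ B, Adm B → (∀ P ∈ S, P ∉ B) → ∀ P ∈ Z, P ∉ B)
    {n : ℕ} (S : Set (Pic0 L F)) (hS : S.Finite) (hT : ∀ x ∈ S, ∃ x' ∈ S, Tp x' = x)
    (hq : ∀ x ∈ S, q ^ n • x = 0)
    (hsp : ∀ x ∈ S, ∀ D : Divisor.degZero (K := L) (F := F), Pic0.mk D = x →
      Finsupp.mapDomain r (D : Divisor L F) ∈ Divisor.principal (K := k) (F := F₁)) :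
    ∀ x ∈ S, ∀ y ∈ S, weil (q ^ n) x y = 1 := by
  classical
  have hqn : 0 < q ^ n := pow_pos K.hq.pos n
  have hTi : ∀ (j : ℕ), ∀ x ∈ S, ∃ x' ∈ S, Tp^[j] x' = x := by
    intro j
    induction j with
    | zero => exact fun x hx => ⟨x, hx, rfl⟩
    | succ j ih =>
      intro x hx
      obtain ⟨x₁, hx₁, h1⟩ := hT x hx
      obtain ⟨x₂, hx₂, h2⟩ := ih x₁ hx₁
      exact ⟨x₂, hx₂, by rw [Function.iterate_succ_apply', h2, h1]⟩
  -- good representatives avoiding an admissible finite set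
  have key : ∀ B : Set (Place k F₁), Adm B → B.Finite → ∀ x ∈ S, ∃ (Z : Set (Place k F₁)) (b : L),
      Adm Z ∧ Z.Finite ∧ (∀ P ∈ Z, P ∉ B) ∧ b ≠ 0 ∧ 𝔇.A.valuation b < 1 ∧
      Rep 𝔇 r q n Z (q * b) x := by
    intro B hBa hB
    have h1 : ∀ x ∈ S, ∃ J : ℕ, ∀ j, J ≤ j → ∃ (Z : Set (Place k F₁)) (b : L),
        Adm Z ∧ Z.Finite ∧ (∀ P ∈ Z, P ∉ B) ∧ b ≠ 0 ∧ 𝔇.A.valuation b < 1 ∧
        Rep 𝔇 r q n Z (q * b) (Tp^[n * j] x) := by
      intro x hx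
      obtain ⟨D, a, h, ha0, ha1, hDx, hdiv, hsupp⟩ := exists_start hr hq0 hq1 x hqn (hq x hx)
        (hsp x hx) hB
      obtain ⟨Z, hZa, hSZ, hZf, hZB⟩ := hAdm (r '' ((D : Divisor L F).support : Set (Place L F)))
        ((Finset.finite_toSet _).image r)
      have hR : Rep 𝔇 r q n Z a x := ⟨D, h, hDx, hdiv, fun P hP =>
        hSZ ⟨P, Finset.mem_coe.2 (Finsupp.mem_support_iff.2 hP), rfl⟩⟩
      obtain ⟨b, hb, hb1, J, hJ⟩ := exists_iter K hr.toIsRed hq0 hq1 harch hZa hR ha1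
      refine ⟨J, fun j hj => ⟨Z, b, hZa, hZf, hZB B hBa ?_, hb, hb1, hJ j hj⟩⟩
      rintro _ ⟨P, hP, rfl⟩
      exact hsupp P (Finsupp.mem_support_iff.1 (Finset.mem_coe.1 hP))
    choose! J hJ using h1
    intro x hx
    obtain ⟨J₀, hJ₀⟩ : ∃ J₀ : ℕ, ∀ x ∈ S, J x ≤ J₀ := by
      obtain ⟨J₀, hJ₀⟩ := (hS.image J).bddAbove
      exact ⟨J₀, fun x hx => hJ₀ ⟨x, hx, rfl⟩⟩
    obtain ⟨x', hx', hxx'⟩ := hTi (n * J₀) x hx
    obtain ⟨Z, b, h2⟩ := hJ x' hx' J₀ (hJ₀ x' hx')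
    rw [hxx'] at h2
    exact ⟨Z, b, h2⟩
  intro x hx y hy
  obtain ⟨Z₀, hZ₀a, -, hZ₀f, -⟩ := hAdm ∅ Set.finite_empty
  obtain ⟨Z, b, hZa, hZf, -, hb, hb1, hR⟩ := key Z₀ hZ₀a hZ₀f x hx
  obtain ⟨Z', b', -, -, hZ'B, hb', hb'1, hR'⟩ := key Z hZa hZf y hy
  exact weil_eq_one hr.toIsRed K.hq hq0 hq1 (fun P hP hP' => hZ'B P hP' hP) hb hb1 hb' hb'1
    (hq x hx) (hq y hy) hR hR'

end Fermat.Agent.MazLQ
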