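import Fermat.Agent.MazLQ.Adm

/-!
# Isotropy of the kernel of reduction on `J₀(N)[q ^ n]`
-/

set_option autoImplicit false
set_option linter.unusedSectionVars false

noncomputable section

open AlgebraicCurve ModularCurve IntermediateField HahnSeries

namespace Fermat.Agent.MazLQ

open Fermat.Agent.FunField Fermat.Agent.ModDeg Fermat.Agent.ModPoly Fermat.Agent.Igusa
  Fermat.Agent.Deuring Fermat.Agent.HeckeRed Fermat.Agent.FunField.PlaceLemmas

local notation "Qb" => AlgebraicClosure ℚ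

variable {A : ValuationSubring Qb} {κ : Type} [Field κ] [IsAlgClosed κ] {π : A →+* κ}
  [IsLocalHom π] {hπ : Function.Surjective π} {N : ℕ} [NeZero N] {hN : (N : κ) ≠ 0}
  (q : ℕ) [hq : Fact q.Prime] [CharP κ q] [PerfectRing κ q]
  {r : Place Qb (laurentBaseChange Qb (modularFunctionFieldFull N)) →
    Place κ (modularFunctionFieldFullC κ N)} (hr : IsReduction (dat A π hπ N hN) r)

/-- **Isotropy of the kernel of reduction.** -/
theorem isotropyJ (k2 : K2Statement) (hA : A.LiesOverPrime q) (hqN : ¬ q ∣ N)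
    (hfr : ∀ σ : AlgebraicClosure ℚ ≃ₐ[ℚ] AlgebraicClosure ℚ, A.IsFrobeniusAt σ q →
      ∃ σA : A →+* A, (∀ a : A, σ a = σA a) ∧
      ∀ a : A, frobenius κ q (π a) = π (σA a)) (n : ℕ) (S : Set (JZero N)) (hS : S.Finite)
    (hT : ∀ x ∈ S, ∃ x' ∈ S, heckeOperatorBar N ⟨q, hq.out⟩ x' = x)
    (hqn : ∀ x ∈ S, q ^ n • x = 0) (hsp : ∀ x ∈ S, spHom hr x = 0) :
    ∀ x ∈ S, ∀ y ∈ S, WeilPairing.weil (K := Qb)
      (F := laurentBaseChange Qb (modularFunctionFieldFull N)) (q ^ n) x y = 1 := by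
  have hA' : (dat A π hπ N hN).A = A := dat_A A π hπ N hN
  have hvq : A.valuation (q : Qb) < 1 := A.mem_nonunits_iff.mp hA
  refine isotropy (kron_data q hr k2 hA hqN) ⟨⟨hr.div⟩, hr.lift⟩
    (by exact_mod_cast hq.out.ne_zero) (by rw [hA']; exact hvq) ?_ ?_ S hS ?_ hqn ?_
  · rw [hA']
    exact fun a ha b hb => arch_of_lies q hA a ha b hb
  · intro S' hS'
    exact exists_hull (frobAut (modularFunctionFieldFullC κ N) (full_stable N) q)
      (frob_orbit_finite q hr hA hfr) S' hS'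
  · exact hT
  · intro x hx D hD
    have h1 := hsp x hx
    rw [← hD] at h1
    exact (mk_eq_zero_iff' _).1 ((spHom_mk hr D).symm.trans h1)

end Fermat.Agent.MazLQ
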