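import Fermat.Agent.FlatJ.Values
import Fermat.Agent.FlatJ.Special
import Fermat.Agent.FlatJ.EffRep
import Fermat.Agent.HeckeRed.Spec
import Fermat.Agent.WeilPairing.Nondeg

/-!
# Divisors and functions attached to torsion classes in the kernel of reduction
-/

set_option autoImplicit false
set_option linter.unusedSectionVars false

noncomputable section

open AlgebraicCurve Module

namespace Fermat.Agent.MazLQ

open Fermat.Agent.FunField Fermat.Agent.FunField.PlaceLemmas Fermat.Agent.S27C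
  Fermat.Agent.TorsInj Fermat.Agent.Deuring Fermat.Agent.FlatJ

attribute [local instance] Fermat.Agent.WeilPairing.isCurveOver

variable {L k F F₁ : Type*} [Field L] [Field k] [Field F] [Field F₁] [Algebra L F]
  [Algebra k F₁] [IsFF L F] [IsFF k F₁] [IsAlgClosed L] [IsAlgClosed k]
  {𝔇 : Data L k F F₁} {r : Place L F → Place k F₁}

omit [IsFF L F] [IsFF k F₁] [IsAlgClosed L] [IsAlgClosed k] in
theorem pi_eq_zero_of_lt (a : 𝔇.A) (h : 𝔇.A.valuation (a : L) < 1) : 𝔇.π a = 0 := by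
  rw [𝔇.π_ker]
  intro hu
  exact (IsLocalRing.mem_maximalIdeal a).1 ((𝔇.A.valuation_lt_one_iff a).2 h) hu

/-- functions congruent to one -/
def oneAdd (a : L) (h : 𝔇.O) : F := 1 + algebraMap L F a * (h : F)

omit [IsFF L F] [IsFF k F₁] [IsAlgClosed L] [IsAlgClosed k] in
theorem mem_oneAdd {a : L} (ha : 𝔇.A.valuation a < 1) (h : 𝔇.O) :
    ∃ hm : oneAdd a h ∈ 𝔇.O, 𝔇.res ⟨oneAdd a h, hm⟩ = 1 := by
  have haA : a ∈ 𝔇.A := (𝔇.A.valuation_le_one_iff a).1 ha.le
  refine ⟨add_mem (one_mem _) (mul_mem ((𝔇.mem_iff a).2 haA) h.2), ?_⟩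
  have h1 : (⟨oneAdd a h, add_mem (one_mem _) (mul_mem ((𝔇.mem_iff a).2 haA) h.2)⟩ : 𝔇.O) =
      1 + 𝔇.cst ⟨a, haA⟩ * h := rfl
  rw [h1, map_add, map_one, map_mul, 𝔇.res_cst, pi_eq_zero_of_lt ⟨a, haA⟩ ha, map_zero, zero_mul,
    add_zero]

omit [IsFF L F] [IsFF k F₁] [IsAlgClosed L] [IsAlgClosed k] in
theorem oneAdd_ne_zero {a : L} (ha : 𝔇.A.valuation a < 1) (h : 𝔇.O) : oneAdd a h ≠ 0 := by
  obtain ⟨hm, h1⟩ := mem_oneAdd ha h
  exact 𝔇.coe_ne_zero_of_res_ne_zero (f := ⟨oneAdd a h, hm⟩) (by rw [h1]; exact one_ne_zero)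

omit [IsFF L F] [IsFF k F₁] [IsAlgClosed L] [IsAlgClosed k] in
/-- a function with residue `0` is small. -/
theorem exists_small {c₀ : L} (hc₀ : c₀ ≠ 0) (hc₁ : 𝔇.A.valuation c₀ < 1) (f : 𝔇.O)
    (hf : 𝔇.res f = 1) : ∃ (a : L) (h : 𝔇.O), a ≠ 0 ∧ 𝔇.A.valuation a < 1 ∧
      (f : F) = oneAdd a h := by
  by_cases h1 : (f : F) - 1 = 0
  · refine ⟨c₀, 0, hc₀, hc₁, ?_⟩
    rw [oneAdd, ZeroMemClass.coe_zero, mul_zero, add_zero]
    exact sub_eq_zero.1 h1
  obtain ⟨c, hc, hm, hres⟩ := 𝔇.exists_smul_res_ne_zero h1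
  refine ⟨c⁻¹, ⟨c • ((f : F) - 1), hm⟩, inv_ne_zero hc, ?_, ?_⟩
  · rw [map_inv₀]
    by_contra hcon
    rw [not_lt] at hcon
    have hcA : c ∈ 𝔇.A := by
      rw [← 𝔇.A.valuation_le_one_iff]
      have h0 : 𝔇.A.valuation c ≠ 0 := (Valuation.ne_zero_iff _).2 hc
      rwa [one_le_inv₀ (zero_lt_iff.2 h0)] at hcon
    apply hres
    have h2 : (⟨c • ((f : F) - 1), hm⟩ : 𝔇.O) = 𝔇.cst ⟨c, hcA⟩ * (f - 1) := by
      apply Subtype.ext
      show c • ((f : F) - 1) = algebraMap L F c * ((f : F) - 1)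
      rw [Algebra.smul_def]
    rw [h2, map_mul, map_sub, hf, map_one, sub_self, mul_zero]
  · rw [oneAdd]
    show (f : F) = 1 + algebraMap L F c⁻¹ * (c • ((f : F) - 1))
    rw [Algebra.smul_def, ← mul_assoc, ← map_mul, inv_mul_cancel₀ hc, map_one, one_mul]
    ring

theorem exists_place_notMem (hr : 𝔇.IsFullRed r) {B : Set (Place k F₁)}
    (hB : B.Finite) : ∃ P₀ : Place L F, r P₀ ∉ B := by
  have hinf : Infinite k := IsAlgClosed.instInfinite
  have : Infinite (Place k F₁) := Fermat.Agent.WeilPairing.infinite_place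
  obtain ⟨Q, hQ⟩ := hB.exists_notMem
  have : HasPrincipalDivisors L F := inferInstance
  have : HasPrincipalDivisors k F₁ := inferInstance
  obtain ⟨P, rfl⟩ := hr.toIsRed.surjective Q
  exact ⟨P, hQ⟩

open Classical in
/-- Good representatives of torsion classes in the kernel of the reduction. -/
theorem exists_start (hr : 𝔇.IsFullRed r) {c₀ : L} (hc₀ : c₀ ≠ 0) (hc₁ : 𝔇.A.valuation c₀ < 1)
    (x : Pic0 L F) {n : ℕ} (hn : 0 < n) (hx : n • x = 0)
    (hsp : ∀ D : Divisor.degZero (K := L) (F := F), Pic0.mk D = x →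
      Finsupp.mapDomain r (D : Divisor L F) ∈ Divisor.principal (K := k) (F := F₁))
    {B : Set (Place k F₁)} (hB : B.Finite) :
    ∃ (D : Divisor.degZero (K := L) (F := F)) (a : L) (h : 𝔇.O), a ≠ 0 ∧ 𝔇.A.valuation a < 1 ∧
      Pic0.mk D = x ∧ divOf (oneAdd a h) = n • (D : Divisor L F) ∧
      ∀ P, (D : Divisor L F) P ≠ 0 → r P ∉ B := by
  obtain ⟨P₀, hP₀⟩ := exists_place_notMem hr hB
  obtain ⟨c₁, hc₁'⟩ := hr.rr
  obtain ⟨c₂, hc₂⟩ := exists_avoiding hr P₀ x
  obtain ⟨m, hm⟩ : ∃ m : ℕ, max c₁ c₂ ≤ m := ⟨_, Int.self_le_toNat _⟩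
  obtain ⟨E, ⟨hE0, D₀, hD₀, hD₀E⟩, hdegE, hEB⟩ := hc₂ m ((le_max_right _ _).trans hm)
    (insert (r P₀) hB.toFinset) (Finset.insert_nonempty _ _)
  rw [hdegE] at hD₀E
  -- the reduced divisor is principal
  obtain ⟨gb, hgb0, hgb⟩ := hsp D₀ hD₀
  have hredE : Finsupp.mapDomain r (D₀ : Divisor L F) =
      Finsupp.mapDomain r E - Finsupp.single (r P₀) (m : ℤ) := by
    rw [hD₀E]
    have h2 : Finsupp.mapDomain r (E - Finsupp.single P₀ (m : ℤ)) = Finsupp.mapDomain r E -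
        Finsupp.mapDomain r (Finsupp.single P₀ (m : ℤ)) :=
      map_sub (Finsupp.mapDomain.addMonoidHom r) _ _
    rw [h2, Finsupp.mapDomain_single]
  have hE0' : 0 ≤ Finsupp.mapDomain r E := Fermat.Agent.Deuring.mapDomain_nonneg r hE0
  have hgbm : gb ∈ riemannRochSpace (Finsupp.mapDomain r (Finsupp.single P₀ (m : ℤ))) := by
    rw [Finsupp.mapDomain_single, Fermat.Agent.Deuring.mem_rr_of_ne hgb0]
    intro v
    rw [← hgb v, hredE, Finsupp.sub_apply]
    have := hE0' v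
    rw [Finsupp.coe_zero, Pi.zero_apply] at this
    omega
  rw [← hc₁' (Finsupp.single P₀ (m : ℤ)) (by
    rw [Divisor.degree_single, Deuring.deg_eq_one]
    simpa using (le_max_left _ _).trans hm)] at hgbm
  obtain ⟨g, hg, rfl⟩ := hgbm
  have hg0 : (g : F) ≠ 0 := 𝔇.coe_ne_zero_of_res_ne_zero hgb0
  have hgpole : ∀ P, P ≠ P₀ → 0 ≤ P.ord (g : F) := by
    intro P hP
    have := (Fermat.Agent.Deuring.mem_rr_of_ne hg0).1 hg P
    rwa [Finsupp.single_eq_of_ne hP, neg_zero] at this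
  have hreddiv := mapDomain_divOf hr.toIsRed hgb0
  -- the divisor
  set D : Divisor.degZero (K := L) (F := F) := D₀ - ⟨divOf (g : F), divOf_mem_degZero _⟩ with hD
  have hDcoe : (D : Divisor L F) = E - Finsupp.single P₀ (m : ℤ) - divOf (g : F) := by
    rw [hD, AddSubgroup.coe_sub, hD₀E]
  have hDx : Pic0.mk D = x := by
    rw [← hD₀, mk_eq_mk_iff, isPrincipal_iff_divOf]
    refine ⟨(g : F)⁻¹, inv_ne_zero hg0, ?_⟩
    rw [Fermat.Agent.WeilPairing.divOf_inv, hD, AddSubgroup.coe_sub]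
    simp
  have hDred : Finsupp.mapDomain r (D : Divisor L F) = 0 := by
    have h1 : Finsupp.mapDomain r (D : Divisor L F) = Finsupp.mapDomain r (D₀ : Divisor L F) -
        Finsupp.mapDomain r (divOf (g : F)) := by
      rw [hD, AddSubgroup.coe_sub]
      exact map_sub (Finsupp.mapDomain.addMonoidHom r) _ _
    rw [h1, hreddiv, sub_eq_zero]
    ext v
    rw [hgb v, divOf_apply]
  -- support
  have hzero : ∀ P, r P ∈ B → (D : Divisor L F) P = 0 := by
    intro P hP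
    have hPP : P ≠ P₀ := by rintro rfl; exact hP₀ hP
    have hEv : Finsupp.mapDomain r E (r P) = 0 :=
      hEB _ (Finset.mem_insert_of_mem (hB.mem_toFinset.2 hP))
    have hEP : E P = 0 := by
      have h1 := le_mapDomain_apply r E P (fun Q _ => hE0 Q)
      have h2 : 0 ≤ E P := hE0 P
      omega
    have hgP : P.ord (g : F) = 0 := by
      have h0 := hgpole P hPP
      by_contra hne
      have h1 := mapDomain_apply_pos r (divOf (g : F)) P (fun Q hQ => by
        rw [divOf_apply]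
        apply hgpole
        rintro rfl
        rw [hQ] at hP₀
        exact hP₀ hP) (by rw [divOf_apply]; omega)
      rw [hreddiv, divOf_apply, ← hgb (r P), hredE, Finsupp.sub_apply, hEv,
        Finsupp.single_eq_of_ne (fun h => by rw [h] at hP; exact hP₀ hP)] at h1
      simp at h1
    rw [hDcoe, Finsupp.sub_apply, Finsupp.sub_apply, hEP, Finsupp.single_eq_of_ne hPP,
      divOf_apply, hgP]
    ring
  -- the function
  have hnD : Pic0.mk (n • D) = 0 := by
    have : Pic0.mk (n • D) = n • Pic0.mk D := rfl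
    rw [this, hDx, hx]
  rw [mk_eq_zero_iff', isPrincipal_iff_divOf] at hnD
  obtain ⟨f, hf0, hf⟩ := hnD
  have hf' : divOf f = n • (D : Divisor L F) := by rw [← hf]; rfl
  obtain ⟨c, hc, hcm, hcres⟩ := 𝔇.exists_smul_res_ne_zero hf0
  have hdivc : (divOf (c • f) : Divisor L F) = divOf f := by
    ext v
    rw [divOf_apply, divOf_apply, ord_smul_of_ne_zero v hc]
  have hres0 : (divOf (𝔇.res ⟨c • f, hcm⟩) : Divisor k F₁) = 0 := by
    rw [← mapDomain_divOf hr.toIsRed hcres]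
    show Finsupp.mapDomain r (divOf (c • f)) = 0
    rw [hdivc, hf', Fermat.Agent.TorsInj.mapDomain_nsmul, hDred, smul_zero]
  obtain ⟨e, he, hce⟩ := Fermat.Agent.WeilPairing.exists_const_of_divOf_eq hcres
    (one_ne_zero (α := F₁)) (by
      rw [hres0]
      ext v
      rw [divOf_apply, Place.ord_one]
      rfl)
  rw [mul_one] at hce
  obtain ⟨u, rfl⟩ := 𝔇.π_surj e
  have hu : IsUnit u := by
    by_contra h
    exact he ((𝔇.π_ker u).2 h)
  obtain ⟨u', hu'⟩ := hu.exists_right_inv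
  have hu'0 : (u' : L) ≠ 0 := by
    intro h
    have h1 := congrArg (Subtype.val) hu'
    change (u : L) * (u' : L) = 1 at h1
    rw [h, mul_zero] at h1
    exact zero_ne_one h1
  have hres1 : 𝔇.res (𝔇.cst u' * ⟨c • f, hcm⟩) = 1 := by
    rw [map_mul, hce, 𝔇.res_cst, ← map_mul, ← map_mul, mul_comm, hu', map_one, map_one]
  obtain ⟨a, h, ha0, ha1, hah⟩ := exists_small hc₀ hc₁ _ hres1
  refine ⟨D, a, h, ha0, ha1, hDx, ?_, fun P hP hPB => hP (hzero P hPB)⟩
  rw [← hah, ← hf', ← hdivc]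
  ext v
  rw [divOf_apply, divOf_apply]
  show v.ord (algebraMap L F (u' : L) * (c • f)) = _
  rw [← Algebra.smul_def, ord_smul_of_ne_zero v hu'0]

end Fermat.Agent.MazLQ
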