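import Fermat.Agent.MazLQ.Start

/-!
# Improvement of the Kummer generators by the Kronecker congruence
-/

set_option autoImplicit false
set_option linter.unusedSectionVars false

noncomputable section

open AlgebraicCurve Module

namespace Fermat.Agent.MazLQ

open Fermat.Agent.FunField Fermat.Agent.FunField.PlaceLemmas Fermat.Agent.S27C
  Fermat.Agent.TorsInj Fermat.Agent.Deuring Fermat.Agent.FlatJ

attribute [local instance] Fermat.Agent.WeilPairing.isCurveOver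

variable {L k F F₁ : Type*} [Field L] [Field k] [Field F] [Field F₁] [Algebra L F]
  [Algebra k F₁] [IsFF L F] [IsFF k F₁] [IsAlgClosed L] [IsAlgClosed k]
  {𝔇 : Data L k F F₁} {r : Place L F → Place k F₁}

/-- `h` has no poles outside the preimage of `Z`. -/
def Reg (r : Place L F → Place k F₁) (Z : Set (Place k F₁)) (h : F) : Prop :=
  ∀ P, r P ∉ Z → 0 ≤ P.ord h

omit [IsFF k F₁] [IsAlgClosed L] [IsAlgClosed k] in
theorem supp_oneAdd (hr : 𝔇.IsRed r) {Z : Set (Place k F₁)} {b : L} (hb : 𝔇.A.valuation b < 1)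
    {h : 𝔇.O} (hh : Reg r Z (h : F)) (P : Place L F) (hP : P.ord (oneAdd b h) ≠ 0) : r P ∈ Z := by
  by_contra hcon
  obtain ⟨hm, h1⟩ := mem_oneAdd hb h
  have hres0 : 𝔇.res ⟨oneAdd b h, hm⟩ ≠ 0 := by rw [h1]; exact one_ne_zero
  have hne := oneAdd_ne_zero hb h
  have hpos : ∀ Q, r Q = r P → 0 ≤ Q.ord (oneAdd b h) := by
    intro Q hQ
    have h2 := hh Q (by rw [hQ]; exact hcon)
    by_cases hbh : algebraMap L F b * (h : F) = 0
    · rw [oneAdd, hbh, add_zero, Place.ord_one]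
    · have h3 := min_ord_le_ord_add Q one_ne_zero hbh hne
      rw [Place.ord_one] at h3
      have hb0 : algebraMap L F b ≠ 0 := left_ne_zero_of_mul hbh
      have hh0 : (h : F) ≠ 0 := right_ne_zero_of_mul hbh
      rw [Q.ord_mul hb0 hh0, ord_algebraMap, zero_add] at h3
      exact le_trans (le_min le_rfl h2) h3
  have h4 := hr.div ⟨oneAdd b h, hm⟩ hres0 (divOf (oneAdd b h)) (fun P => divOf_apply _ P) (r P)
  rw [h1, Place.ord_one] at h4
  have h5 := mapDomain_apply_pos r (divOf (oneAdd b h)) P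
    (fun Q hQ => by rw [divOf_apply]; exact hpos Q hQ)
    (by rw [divOf_apply]; exact lt_of_le_of_ne (hpos P rfl) (Ne.symm hP))
  rw [h4] at h5
  exact lt_irrefl _ h5

omit [IsFF k F₁] [IsAlgClosed L] [IsAlgClosed k] in
theorem reg_of_supp {Z : Set (Place k F₁)} {a : L} (ha : a ≠ 0) (ha1 : 𝔇.A.valuation a < 1)
    {h : 𝔇.O} (hs : ∀ P, P.ord (oneAdd a h) ≠ 0 → r P ∈ Z) : Reg r Z (h : F) := by
  intro P hP
  have h0 : P.ord (oneAdd a h) = 0 := by
    by_contra hcon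
    exact hP (hs P hcon)
  by_cases hh : (h : F) = 0
  · rw [hh, Place.ord_zero]
  have ha' : algebraMap L F a ≠ 0 := by simpa using ha
  have hne := oneAdd_ne_zero ha1 h
  have h1 : P.ord (algebraMap L F a * (h : F)) = P.ord (h : F) := by
    rw [P.ord_mul ha' hh, ord_algebraMap, zero_add]
  rw [← h1]
  have h2 : algebraMap L F a * (h : F) = oneAdd a h + (-1) := by rw [oneAdd]; ring
  have h3 : oneAdd a h + (-1) ≠ 0 := by rw [← h2]; exact mul_ne_zero ha' hh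
  have h4 := min_ord_le_ord_add P hne (neg_ne_zero.2 one_ne_zero) h3
  rw [h2]
  rw [h0, ord_neg, Place.ord_one, min_self] at h4
  exact h4

/-- The Hecke operator on functions, divisors and classes, and the Kronecker congruence. -/
structure Kron (𝔇 : Data L k F F₁) (r : Place L F → Place k F₁) (q : ℕ)
    (Adm : Set (Place k F₁) → Prop) (Tf : F → F) (Td : Divisor L F →+ Divisor L F)
    (Tp : Pic0 L F →+ Pic0 L F) : Prop where
  hq : q.Prime
  div : ∀ f, f ≠ 0 → divOf (Tf f) = Td (divOf f)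
  ne : ∀ f, f ≠ 0 → Tf f ≠ 0
  deg : ∀ D ∈ Divisor.degZero (K := L) (F := F), Td D ∈ Divisor.degZero (K := L) (F := F)
  pic : ∀ D : Divisor.degZero (K := L) (F := F), Tp (Pic0.mk D) = Pic0.mk ⟨Td D, deg D D.2⟩
  supp : ∀ Z, Adm Z → ∀ D : Divisor L F, (∀ P, D P ≠ 0 → r P ∈ Z) → ∀ P, Td D P ≠ 0 → r P ∈ Z
  kron : ∀ Z, Adm Z → ∀ (n : ℕ) (h : 𝔇.O), Reg r Z (h : F) → ∀ a : L, a ≠ 0 →
    𝔇.A.valuation a < 1 → ∀ c : L, 𝔇.A.valuation (q : L) ≤ 𝔇.A.valuation c →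
    𝔇.A.valuation a ≤ 𝔇.A.valuation c → ∃ k z : 𝔇.O, Reg r Z (k : F) ∧
      Tf^[n] (oneAdd a h) = 1 + algebraMap L F a * (k : F) ^ q ^ n +
        algebraMap L F (a * c) * (z : F)

variable {q : ℕ} {Adm : Set (Place k F₁) → Prop} {Tf : F → F} {Td : Divisor L F →+ Divisor L F}
  {Tp : Pic0 L F →+ Pic0 L F}

omit [IsFF k F₁] [IsAlgClosed L] [IsAlgClosed k] in
theorem Kron.iter (K : Kron 𝔇 r q Adm Tf Td Tp) (n : ℕ) :
    (∀ f, f ≠ 0 → Tf^[n] f ≠ 0 ∧ divOf (Tf^[n] f) = Td^[n] (divOf f)) ∧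
    (∀ D : Divisor.degZero (K := L) (F := F), ∃ hD : Td^[n] (D : Divisor L F) ∈
      Divisor.degZero (K := L) (F := F), Tp^[n] (Pic0.mk D) = Pic0.mk ⟨_, hD⟩) ∧
    (∀ Z, Adm Z → ∀ D : Divisor L F, (∀ P, D P ≠ 0 → r P ∈ Z) →
      ∀ P, Td^[n] D P ≠ 0 → r P ∈ Z) ∧
    (∀ (m : ℕ) (D : Divisor L F), Td^[n] (m • D) = m • Td^[n] D) := by
  induction n with
  | zero => exact ⟨fun f hf => ⟨hf, rfl⟩, fun D => ⟨D.2, rfl⟩, fun _ _ _ h => h, fun _ _ => rfl⟩
  | succ n ih =>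
    obtain ⟨h1, h2, h3, h4⟩ := ih
    refine ⟨fun f hf => ?_, fun D => ?_, fun Z hZ D hD => ?_, fun m D => ?_⟩
    · rw [Function.iterate_succ_apply', Function.iterate_succ_apply']
      exact ⟨K.ne _ (h1 f hf).1, by rw [K.div _ (h1 f hf).1, (h1 f hf).2]⟩
    · obtain ⟨hD, hD'⟩ := h2 D
      refine ⟨by rw [Function.iterate_succ_apply']; exact K.deg _ hD, ?_⟩
      rw [Function.iterate_succ_apply', hD', K.pic]
      congr 1
      apply Subtype.ext
      exact (Function.iterate_succ_apply' Td n (D : Divisor L F)).symm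
    · rw [Function.iterate_succ_apply']
      exact K.supp Z hZ _ (h3 Z hZ D hD)
    · rw [Function.iterate_succ_apply', Function.iterate_succ_apply', h4, map_nsmul]

variable (𝔇 r q) in
/-- `x` is represented by a divisor supported over `Z` with Kummer generator `1 + a h`. -/
def Rep (n : ℕ) (Z : Set (Place k F₁)) (a : L) (x : Pic0 L F) : Prop :=
  ∃ (D : Divisor.degZero (K := L) (F := F)) (h : 𝔇.O), Pic0.mk D = x ∧
    divOf (oneAdd a h) = (q ^ n) • (D : Divisor L F) ∧ ∀ P, (D : Divisor L F) P ≠ 0 → r P ∈ Z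

omit [IsFF k F₁] [IsAlgClosed L] [IsAlgClosed k] in
theorem exists_factor {x y : L} (hy : y ≠ 0) (h : 𝔇.A.valuation x ≤ 𝔇.A.valuation y) :
    ∃ c : 𝔇.A, x = y * c := by
  refine ⟨⟨x / y, ?_⟩, ?_⟩
  · rw [← 𝔇.A.valuation_le_one_iff, map_div₀]
    exact div_le_one_of_le₀ h zero_le
  · show x = y * (x / y)
    field_simp

omit [IsFF k F₁] [IsAlgClosed L] [IsAlgClosed k] in
theorem Rep.mono {n : ℕ} {Z : Set (Place k F₁)} {a a' : L} {x : Pic0 L F}
    (H : Rep 𝔇 r q n Z a x) (ha' : a' ≠ 0) (h : 𝔇.A.valuation a ≤ 𝔇.A.valuation a') :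
    Rep 𝔇 r q n Z a' x := by
  obtain ⟨D, f, h1, h2, h3⟩ := H
  obtain ⟨c, rfl⟩ := exists_factor (𝔇 := 𝔇) ha' h
  refine ⟨D, 𝔇.cst c * f, h1, ?_, h3⟩
  rw [← h2]
  congr 1
  rw [oneAdd, oneAdd]
  show 1 + algebraMap L F a' * (algebraMap L F (c : L) * (f : F)) = _
  rw [map_mul, mul_assoc]

omit [IsFF k F₁] [IsAlgClosed L] [IsAlgClosed k] in
theorem Rep.step (K : Kron 𝔇 r q Adm Tf Td Tp) (hr : 𝔇.IsRed r) {n : ℕ} {Z : Set (Place k F₁)}
    (hZ : Adm Z) {a a' b : L} {x : Pic0 L F} (H : Rep 𝔇 r q n Z a x) (ha : a ≠ 0)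
    (ha1 : 𝔇.A.valuation a < 1) (ha' : a' ≠ 0) (hb : b ^ q ^ n = a)
    (h1 : 𝔇.A.valuation (q * b) ≤ 𝔇.A.valuation a')
    (h2 : 𝔇.A.valuation (a * a) ≤ 𝔇.A.valuation a') :
    Rep 𝔇 r q n Z a' (Tp^[n] x) := by
  obtain ⟨D, h, hDx, hdiv, hsupp⟩ := H
  have hqn : q ^ n ≠ 0 := pow_ne_zero _ K.hq.ne_zero
  -- regularity of `h`
  have hreg : Reg r Z (h : F) := reg_of_supp ha ha1 (fun P hP => by
    apply hsupp
    intro h0
    apply hP
    rw [← divOf_apply, hdiv, Finsupp.smul_apply, h0, smul_zero])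
  -- the constant `c`
  obtain ⟨c, hc1, hc2, hc3⟩ : ∃ c : L, 𝔇.A.valuation (q : L) ≤ 𝔇.A.valuation c ∧
      𝔇.A.valuation a ≤ 𝔇.A.valuation c ∧ (c = a ∨ c = q) := by
    rcases le_total (𝔇.A.valuation (q : L)) (𝔇.A.valuation a) with h | h
    · exact ⟨a, h, le_rfl, Or.inl rfl⟩
    · exact ⟨q, le_rfl, h, Or.inr rfl⟩
  obtain ⟨k, z, hk, hkz⟩ := K.kron Z hZ n h hreg a ha ha1 c hc1 hc2
  have hb1 : 𝔇.A.valuation b < 1 := by
    by_contra hcon
    rw [not_lt] at hcon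
    have := one_le_pow₀ hcon (n := q ^ n)
    rw [← map_pow, hb] at this
    exact absurd ha1 (not_lt.2 this)
  have hab : 𝔇.A.valuation a ≤ 𝔇.A.valuation b := by
    rw [← hb, map_pow]
    exact pow_le_of_le_one zero_le hb1.le hqn
  obtain ⟨hgm, hg1⟩ := mem_oneAdd hb1 k
  have hg0 : oneAdd b k ≠ 0 := oneAdd_ne_zero hb1 k
  have hgs := supp_oneAdd hr hb1 hk
  obtain ⟨i1, i2, i3, i4⟩ := K.iter n
  have hf0 := oneAdd_ne_zero ha1 h
  obtain ⟨hTf0, hTfd⟩ := i1 _ hf0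
  obtain ⟨hTD, hTpD⟩ := i2 D
  have hbA : b ∈ 𝔇.A := (𝔇.A.valuation_le_one_iff b).1 hb1.le
  set y : 𝔇.O := 𝔇.cst ⟨b, hbA⟩ * k with hy
  set G : 𝔇.O := ⟨oneAdd b k, hgm⟩ with hG
  have hGy : G = 1 + y := rfl
  have hGres : 𝔇.res G ≠ 0 := by rw [hg1]; exact one_ne_zero
  obtain ⟨G', hGG'⟩ := (𝔇.isUnit_of_res_ne_zero hGres).exists_right_inv
  have hGG : (G : F) * (G' : F) = 1 := congrArg Subtype.val hGG'
  have hG'0 : (G' : F) ≠ 0 := right_ne_zero_of_mul_eq_one hGG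
  -- factorizations
  have hqb : ∃ e₁ : 𝔇.A, (q : L) * b = a' * e₁ := exists_factor ha' h1
  have hac : ∃ e₂ : 𝔇.A, a * c = a' * e₂ := by
    refine exists_factor ha' ?_
    rcases hc3 with rfl | rfl
    · exact h2
    · refine le_trans ?_ h1
      rw [map_mul, map_mul, mul_comm]
      exact mul_le_mul_right hab _
  obtain ⟨e₁, he₁⟩ := hqb
  obtain ⟨e₂, he₂⟩ := hac
  obtain ⟨m, hm⟩ := exists_add_pow_prime_pow_eq K.hq (1 : 𝔇.O) y n
  have hm' : (G : F) ^ q ^ n = 1 + algebraMap L F a * (k : F) ^ q ^ n +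
      algebraMap L F (q * b) * ((k : F) * (m : F)) := by
    have h5 := congrArg (Subtype.val) hm
    rw [← hGy] at h5
    have h6 : ((G ^ q ^ n : 𝔇.O) : F) = (G : F) ^ q ^ n := rfl
    have h7 : ((1 ^ q ^ n + y ^ q ^ n + (q : 𝔇.O) * 1 * y * m : 𝔇.O) : F) =
        1 ^ q ^ n + (algebraMap L F b * (k : F)) ^ q ^ n + ((q : 𝔇.O) : F) * 1 *
          (algebraMap L F b * (k : F)) * (m : F) := rfl
    rw [← h6, h5, h7, one_pow, mul_pow, ← map_pow, hb, map_mul, map_natCast]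
    push_cast
    ring
  set f := Tf^[n] (oneAdd a h) with hf
  set h' : 𝔇.O := (𝔇.cst e₂ * z - 𝔇.cst e₁ * (k * m)) * G' ^ q ^ n with hh'
  have hone : oneAdd a' h' = f * (G' : F) ^ q ^ n := by
    have h5 : (h' : F) = (algebraMap L F (e₂ : L) * (z : F) - algebraMap L F (e₁ : L) *
      ((k : F) * (m : F))) * (G' : F) ^ q ^ n := rfl
    have h6 : algebraMap L F a' * (h' : F) = (f - (G : F) ^ q ^ n) * (G' : F) ^ q ^ n := by
      rw [h5, hkz, hm', he₁, he₂, map_mul, map_mul]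
      ring
    rw [oneAdd, h6, sub_mul, ← mul_pow, hGG, one_pow]
    ring
  refine ⟨⟨Td^[n] (D : Divisor L F), hTD⟩ - ⟨divOf (oneAdd b k), FlatJ.divOf_mem_degZero _⟩, h',
    ?_, ?_, ?_⟩
  · rw [← hDx, hTpD, FlatJ.mk_eq_mk_iff, FlatJ.isPrincipal_iff_divOf]
    refine ⟨(oneAdd b k)⁻¹, inv_ne_zero hg0, ?_⟩
    rw [Fermat.Agent.WeilPairing.divOf_inv, AddSubgroup.coe_sub]
    simp
  · rw [hone]
    have h5 : (divOf (f * (G' : F) ^ q ^ n) : Divisor L F) = divOf f +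
        (q ^ n) • divOf (G' : F) := by
      rw [Fermat.Agent.WeilPairing.divOf_mul hTf0 (pow_ne_zero _ hG'0),
        Fermat.Agent.WeilPairing.divOf_pow]
    have h6 : (divOf (G' : F) : Divisor L F) = - divOf (oneAdd b k) := by
      rw [← Fermat.Agent.WeilPairing.divOf_inv]
      congr 1
      exact eq_inv_of_mul_eq_one_right hGG
    rw [h5, h6, hTfd, hdiv, i4, AddSubgroup.coe_sub, smul_sub, smul_neg, sub_eq_add_neg]
  · intro P hP
    rw [AddSubgroup.coe_sub, Finsupp.sub_apply] at hP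
    by_contra hPZ
    apply hP
    have h5 : Td^[n] (D : Divisor L F) P = 0 := by
      by_contra h; exact hPZ (i3 Z hZ _ hsupp P h)
    have h6 : P.ord (oneAdd b k) = 0 := by
      by_contra h; exact hPZ (hgs P h)
    show Td^[n] (D : Divisor L F) P - divOf (oneAdd b k) P = 0
    rw [h5, divOf_apply, h6, sub_zero]

end Fermat.Agent.MazLQ
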